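import Fermat.Agent.StrongApproximation.Basic
import Mathlib.Algebra.Field.ZMod
import Mathlib.Algebra.Group.Pointwise.Finset.Basic
import Mathlib.Analysis.InnerProductSpace.PiL2
import Mathlib.Analysis.InnerProductSpace.Spectrum
import Mathlib.LinearAlgebra.Eigenspace.Basic
import Mathlib.RepresentationTheory.Basic
import Mathlib.RingTheory.RootsOfUnity.Complex

/-!
# Gowers's theorem on quasirandom groups

If the non-trivial representations have dimension at least `d` and `|A| |B| |C| d > |G| ^ 3` then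
`A B C = G`: the convolution by `A` is small on functions of mean zero.  For `SL₂ (𝔽_p)` one may
take `d = (p - 1) / 2`.
-/

set_option autoImplicit false

noncomputable section

namespace FA.Helfgott

open Finset Module
open scoped Pointwise InnerProductSpace

variable {G : Type*} [Group G] [Fintype G] [DecidableEq G]

/-- The non-trivial representations have dimension at least `d`. -/
def Quasirandom (G : Type*) [Group G] (d : ℕ) : Prop :=
  ∀ (n : ℕ) (ρ : Representation ℂ G (Fin n → ℂ)), (∃ g v, ρ g v ≠ v) → d ≤ n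

/-- Right translation. -/
def rightT (g : G) : EuclideanSpace ℂ G →ₗ[ℂ] EuclideanSpace ℂ G where
  toFun f := WithLp.toLp 2 fun x => f (x * g)
  map_add' f h := by ext x; simp
  map_smul' c f := by ext x; simp

/-- Left convolution by `A`. -/
def conv (A : Finset G) : EuclideanSpace ℂ G →ₗ[ℂ] EuclideanSpace ℂ G where
  toFun f := WithLp.toLp 2 fun x => ∑ a ∈ A, f (a⁻¹ * x)
  map_add' f h := by ext x; simp [sum_add_distrib]
  map_smul' c f := by ext x; simp [mul_sum]

omit [Fintype G] [DecidableEq G] in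
theorem rightT_apply (g : G) (f : EuclideanSpace ℂ G) (x : G) : rightT g f x = f (x * g) := rfl

omit [Fintype G] [DecidableEq G] in
theorem conv_apply (A : Finset G) (f : EuclideanSpace ℂ G) (x : G) :
    conv A f x = ∑ a ∈ A, f (a⁻¹ * x) := rfl

omit [Fintype G] [DecidableEq G] in
theorem conv_rightT (A : Finset G) (g : G) (f : EuclideanSpace ℂ G) :
    conv A (rightT g f) = rightT g (conv A f) := by
  ext x
  simp [conv_apply, rightT_apply, mul_assoc]

theorem inner_conv (A : Finset G) (f h : EuclideanSpace ℂ G) :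
    ⟪conv A f, h⟫_ℂ = ⟪f, conv A⁻¹ h⟫_ℂ := by
  simp only [PiLp.inner_apply, conv_apply, RCLike.inner_apply, map_sum, mul_sum, sum_mul]
  rw [sum_comm]
  conv_rhs => rw [sum_comm, Finset.inv_def, sum_image inv_injective.injOn]
  refine sum_congr rfl fun a _ => ?_
  exact Fintype.sum_equiv (Equiv.mulLeft a⁻¹) _ _ fun x => by simp

omit [DecidableEq G] in
theorem sum_conv (A : Finset G) (f : EuclideanSpace ℂ G) :
    ∑ x, conv A f x = #A * ∑ x, f x := by
  simp only [conv_apply]
  rw [sum_comm]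
  simp only [fun a : G => Fintype.sum_equiv (Equiv.mulLeft a⁻¹) (fun x => f (a⁻¹ * x))
    (fun x => f x)
    fun x => rfl]
  rw [sum_const, nsmul_eq_mul]

/-- Functions of mean zero. -/
def meanZero (G : Type*) [Fintype G] : Submodule ℂ (EuclideanSpace ℂ G) where
  carrier := {f | ∑ x, f x = 0}
  add_mem' {f h} hf hh := by
    simp only [Set.mem_ofPred_eq] at hf hh ⊢
    simp [sum_add_distrib, hf, hh]
  zero_mem' := by simp
  smul_mem' c f hf := by
    simp only [Set.mem_ofPred_eq] at hf ⊢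
    simp [← mul_sum, hf]

/-- The operator `T* T`. -/
def energyOp (A : Finset G) : EuclideanSpace ℂ G →ₗ[ℂ] EuclideanSpace ℂ G := conv A⁻¹ ∘ₗ conv A

/-- **A large eigenvalue has a small eigenspace.** -/
theorem eigenvalue_bound {d : ℕ} (hd : Quasirandom G d) (A : Finset G) {r : ℝ}
    {b : EuclideanSpace ℂ G} (hb : b ∈ meanZero G) (hb0 : b ≠ 0)
    (he : energyOp A b = (r : ℂ) • b) : d * r ≤ Fintype.card G * #A := by
  set V := meanZero G ⊓ Module.End.eigenspace (energyOp A) (r : ℂ) with hV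
  have hinv : ∀ g, ∀ v ∈ V, rightT g v ∈ V := by
    rintro g v ⟨hv1, hv2⟩
    refine ⟨?_, Module.End.mem_eigenspace_iff.2 ?_⟩
    · show ∑ x, v (x * g) = 0
      rw [Fintype.sum_equiv (Equiv.mulRight g) (fun x => v (x * g)) (fun x => v x) fun x => rfl]
      exact hv1
    · rw [energyOp, LinearMap.comp_apply, conv_rightT, conv_rightT]
      exact (congrArg (rightT g) (Module.End.mem_eigenspace_iff.1 hv2)).trans (map_smul _ _ _)
  have hbV : b ∈ V := ⟨hb, Module.End.mem_eigenspace_iff.2 he⟩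
  let ρ : Representation ℂ G V :=
    { toFun := fun g => (rightT g).restrict (hinv g)
      map_one' := by
        refine LinearMap.ext fun v => Subtype.ext ?_
        ext x
        simp [rightT_apply]
      map_mul' := fun g h => by
        refine LinearMap.ext fun v => Subtype.ext ?_
        ext x
        simp [rightT_apply, mul_assoc] }
  set e := stdOrthonormalBasis ℂ V
  have hdim : d ≤ finrank ℂ V := by
    let eq : V ≃ₗ[ℂ] (Fin (finrank ℂ V) → ℂ) :=
      e.repr.toLinearEquiv.trans (WithLp.linearEquiv 2 ℂ (Fin (finrank ℂ V) → ℂ))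
    refine hd _ (eq.conjRingEquiv.toMonoidHom.comp ρ) ?_
    by_contra! h
    have hfix : ∀ g, ρ g ⟨b, hbV⟩ = ⟨b, hbV⟩ := fun g => eq.injective (by
      have := h g (eq ⟨b, hbV⟩)
      change eq (ρ g (eq.symm (eq ⟨b, hbV⟩))) = _ at this
      rwa [LinearEquiv.symm_apply_apply] at this)
    refine hb0 ?_
    have hconst : ∀ g, b g = b 1 := fun g => by
      have := congrArg (fun v : V => (v : EuclideanSpace ℂ G) 1) (hfix g)
      simpa [ρ, rightT_apply] using this
    have hsum : ∑ x, b x = 0 := hb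
    rw [Finset.sum_congr rfl fun x _ => hconst x, sum_const, nsmul_eq_mul] at hsum
    ext x
    rw [hconst]
    exact (mul_eq_zero.1 hsum).resolve_left (by simp [Fintype.card_ne_zero])
  have hnorm : ∀ i, ‖conv A (e i : EuclideanSpace ℂ G)‖ ^ 2 = r := fun i => by
    have h1 : ‖(e i : EuclideanSpace ℂ G)‖ = 1 := e.orthonormal.1 i
    rw [← inner_self_eq_norm_sq (𝕜 := ℂ), inner_conv,
      show conv A⁻¹ (conv A (e i : EuclideanSpace ℂ G)) = (r : ℂ) • (e i : EuclideanSpace ℂ G) from
        Module.End.mem_eigenspace_iff.1 (e i).2.2, inner_smul_right, inner_self_eq_norm_sq_to_K, h1]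
    simp
  have hr : 0 ≤ r := by
    rcases Nat.eq_zero_or_pos (finrank ℂ V) with h | h
    · have := Submodule.finrank_eq_zero.1 h
      exact absurd ((Submodule.eq_bot_iff _).1 this b hbV) hb0
    · exact (hnorm ⟨0, h⟩) ▸ sq_nonneg _
  let k : G → EuclideanSpace ℂ G := fun x => WithLp.toLp 2 fun y => if x * y⁻¹ ∈ A then 1 else 0
  have hk : ∀ x f, ⟪k x, f⟫_ℂ = conv A f x := fun x f => by
    simp only [PiLp.inner_apply, RCLike.inner_apply, conv_apply, k, apply_ite (starRingEnd ℂ),
      map_one, map_zero, mul_ite, mul_one, mul_zero]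
    rw [← sum_filter]
    refine sum_bij' (fun y _ => x * y⁻¹) (fun a _ => a⁻¹ * x) ?_ ?_ ?_ ?_ ?_ <;>
      simp [mul_assoc]
  have hkn : ∀ x, ‖k x‖ ^ 2 = #A := fun x => by
    rw [EuclideanSpace.norm_sq_eq]
    simp only [k, apply_ite (‖·‖), norm_one, norm_zero, ite_pow, one_pow, ne_eq,
      OfNat.ofNat_ne_zero,
      not_false_eq_true, zero_pow]
    rw [sum_boole]
    refine congrArg _ (card_bij' (fun y _ => x * y⁻¹) (fun a _ => a⁻¹ * x) ?_ ?_ ?_ ?_) <;>
      simp [mul_assoc]
  have horth : Orthonormal ℂ fun i => (e i : EuclideanSpace ℂ G) :=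
    e.orthonormal.comp_linearIsometry V.subtypeₗᵢ
  have hbound : (finrank ℂ V : ℝ) * r ≤ Fintype.card G * #A := by
    calc (finrank ℂ V : ℝ) * r = ∑ i, ‖conv A (e i : EuclideanSpace ℂ G)‖ ^ 2 := by
          simp [hnorm]
      _ = ∑ x, ∑ i, ‖⟪(e i : EuclideanSpace ℂ G), k x⟫_ℂ‖ ^ 2 := by
          rw [sum_comm]
          refine sum_congr rfl fun i _ => ?_
          rw [EuclideanSpace.norm_sq_eq]
          refine sum_congr rfl fun x _ => ?_
          rw [norm_inner_symm, hk]
      _ ≤ ∑ x, ‖k x‖ ^ 2 := sum_le_sum fun x _ =>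
          Orthonormal.sum_inner_products_le (k x) horth (s := univ)
      _ = _ := by simp [hkn]
  exact le_trans (mul_le_mul_of_nonneg_right (by exact_mod_cast hdim) hr) hbound

/-- **Convolution is small on functions of mean zero.** -/
theorem conv_norm_le {d : ℕ} (hd : Quasirandom G d) (A : Finset G) {f : EuclideanSpace ℂ G}
    (hf : f ∈ meanZero G) : d * ‖conv A f‖ ^ 2 ≤ Fintype.card G * #A * ‖f‖ ^ 2 := by
  have hmaps : ∀ v ∈ meanZero G, energyOp A v ∈ meanZero G := fun v hv => by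
    show ∑ x, conv A⁻¹ (conv A v) x = 0
    rw [sum_conv, sum_conv, show ∑ x, v x = 0 from hv, mul_zero, mul_zero]
  have hsymm : (energyOp A).IsSymmetric := fun u v => by
    rw [energyOp, LinearMap.comp_apply, LinearMap.comp_apply, inner_conv, inv_inv]
    rw [← inner_conv]
  have hs := hsymm.restrict_invariant hmaps
  set bb := hs.eigenvectorBasis rfl
  set lam := hs.eigenvalues rfl
  have hlam : ∀ i, d * lam i ≤ Fintype.card G * #A := fun i =>
    eigenvalue_bound hd A (bb i).2 (fun h => bb.toBasis.ne_zero i (by simpa using Subtype.ext h))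
      (congrArg Subtype.val (hs.apply_eigenvectorBasis rfl i))
  set F : meanZero G := ⟨f, hf⟩
  have hquad : ‖conv A f‖ ^ 2 = ∑ i, lam i * ‖bb.repr F i‖ ^ 2 := by
    have h : ⟪F, (energyOp A).restrict hmaps F⟫_ℂ = ⟪f, conv A⁻¹ (conv A f)⟫_ℂ := rfl
    rw [← inner_self_eq_norm_sq (𝕜 := ℂ), inner_conv, ← h, ← bb.repr.inner_map_map,
      PiLp.inner_apply, map_sum]
    refine sum_congr rfl fun i _ => ?_
    rw [hs.eigenvectorBasis_apply_self_apply rfl F i, RCLike.inner_apply, mul_assoc,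
      Complex.mul_conj', ← Complex.ofReal_pow]
    simp [lam, bb, -Complex.ofReal_pow]
  calc (d : ℝ) * ‖conv A f‖ ^ 2 = ∑ i, (d * lam i) * ‖bb.repr F i‖ ^ 2 := by
        rw [hquad, mul_sum]
        simp [mul_assoc]
    _ ≤ ∑ i, (Fintype.card G * #A : ℝ) * ‖bb.repr F i‖ ^ 2 :=
        sum_le_sum fun i _ => mul_le_mul_of_nonneg_right (hlam i) (sq_nonneg _)
    _ = Fintype.card G * #A * ‖F‖ ^ 2 := by
        rw [← mul_sum, ← EuclideanSpace.norm_sq_eq, bb.repr.norm_map]

/-- **Gowers's theorem.** -/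
theorem mul_mul_eq_univ {d : ℕ} (hd : Quasirandom G d) {A B C : Finset G}
    (h : Fintype.card G ^ 3 < d * (#A * #B * #C)) : A * B * C = univ := by
  by_contra hne
  obtain ⟨g, hg⟩ : ∃ g, g ∉ A * B * C := by
    by_contra! hall
    exact hne (eq_univ_of_forall hall)
  have hG : (0 : ℝ) < Fintype.card G := by exact_mod_cast Fintype.card_pos
  set β : ℝ := #B / Fintype.card G with hβ
  let f : EuclideanSpace ℂ G := WithLp.toLp 2 fun x => (((if x ∈ B then 1 else 0) - β : ℝ) : ℂ)
  have hf : f ∈ meanZero G := by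
    show ∑ x, f x = 0
    simp only [f]
    rw [← Complex.ofReal_sum, sum_sub_distrib, sum_boole, filter_univ_mem, sum_const, nsmul_eq_mul,
      card_univ, hβ, mul_div_cancel₀ _ hG.ne', sub_self, Complex.ofReal_zero]
  have hfn : ‖f‖ ^ 2 ≤ #B := by
    have h2 : ∑ x : G, ((if x ∈ B then (1 : ℝ) else 0) - β) ^ 2 =
        (1 - 2 * β) * #B + Fintype.card G * β ^ 2 := by
      have : ∀ x : G, ((if x ∈ B then (1 : ℝ) else 0) - β) ^ 2 =
          (if x ∈ B then 1 else 0) * (1 - 2 * β) + β ^ 2 := fun x => by split_ifs <;> ring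
      rw [sum_congr rfl fun x _ => this x, sum_add_distrib, ← sum_mul, sum_boole, filter_univ_mem,
        sum_const, nsmul_eq_mul, card_univ]
      ring
    rw [EuclideanSpace.norm_sq_eq]
    simp only [f, Complex.norm_real, Real.norm_eq_abs, sq_abs, h2]
    have : (Fintype.card G : ℝ) * β ^ 2 = #B * β := by
      rw [hβ]; field_simp
    rw [this]
    nlinarith [show 0 ≤ β from by positivity, show (0 : ℝ) ≤ #B from by positivity]
  have hval : ∀ c ∈ C, ‖conv A f (g * c⁻¹)‖ ^ 2 = (#A * β) ^ 2 := by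
    intro c hc
    have : ∀ a ∈ A, f (a⁻¹ * (g * c⁻¹)) = ((-β : ℝ) : ℂ) := by
      intro a ha
      simp only [f]
      rw [if_neg fun hb => hg ?_, zero_sub]
      rw [show g = a * (a⁻¹ * (g * c⁻¹)) * c by group]
      exact mul_mem_mul (mul_mem_mul ha hb) hc
    rw [conv_apply, sum_congr rfl this, sum_const, nsmul_eq_mul, ← Complex.ofReal_natCast,
      ← Complex.ofReal_mul, Complex.norm_real, Real.norm_eq_abs, sq_abs, mul_neg, neg_sq]
  have hlow : (#C : ℝ) * (#A * β) ^ 2 ≤ ‖conv A f‖ ^ 2 := by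
    rw [EuclideanSpace.norm_sq_eq]
    calc (#C : ℝ) * (#A * β) ^ 2 = ∑ x ∈ C.image (g * ·⁻¹), ‖conv A f x‖ ^ 2 := by
          rw [sum_image fun a _ b _ h => inv_injective (mul_left_cancel h), sum_congr rfl hval,
            sum_const, nsmul_eq_mul]
      _ ≤ _ := sum_le_univ_sum_of_nonneg fun x => sq_nonneg _
  have hmain : (d : ℝ) * (#C * (#A * β) ^ 2) ≤ Fintype.card G * #A * #B :=
    (mul_le_mul_of_nonneg_left hlow (Nat.cast_nonneg d)).trans
      ((conv_norm_le hd A hf).trans (mul_le_mul_of_nonneg_left hfn (by positivity)))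
  have hlt : (Fintype.card G : ℝ) ^ 3 < d * (#A * #B * #C) := by exact_mod_cast h
  have hAB : (0 : ℝ) < #A * #B := by
    have : #A * #B ≠ 0 := fun e => by simp [e] at h
    exact_mod_cast Nat.pos_of_ne_zero this
  rw [hβ] at hmain
  field_simp at hmain
  nlinarith [mul_lt_mul_of_pos_left hlt hAB]

open FA.StrongApprox Matrix in
/-- **`SL₂ (𝔽_p)` is quasirandom.** -/
theorem quasirandom_SL2 {p : ℕ} [hp : Fact p.Prime] :
    Quasirandom (SL2 (ZMod p)) ((p - 1) / 2) := by
  intro n ρ hnt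
  set u := ρ (U (1 : ZMod p)) with hu
  have hpow : ∀ t : ZMod p, ρ (U t) = u ^ t.val := fun t => by
    rw [hu, ← map_pow, ← U_nsmul, ZMod.natCast_zmod_val, mul_one]
  have hu1 : u ≠ 1 := by
    intro h1
    have hker : ρ.ker = ⊤ := by
      refine eq_top_of_U_L local_field (fun t => ?_) fun t => ?_
      · rw [MonoidHom.mem_ker, hpow, h1, one_pow]
      · let w : SL2 (ZMod p) := ⟨!![0, -1; 1, 0], by simp [det_fin_two]⟩
        have : L t = w * U (-t) * w⁻¹ := by
          ext i j
          fin_cases i <;> fin_cases j <;>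
            simp [L, U, w, Matrix.mul_apply, Fin.sum_univ_two, SpecialLinearGroup.coe_inv,
              adjugate_fin_two]
        rw [this, MonoidHom.mem_ker, map_mul, map_mul, hpow, h1, one_pow, mul_one, ← map_mul,
          mul_inv_cancel, map_one]
    obtain ⟨g, v, hgv⟩ := hnt
    have : g ∈ ρ.ker := hker ▸ Subgroup.mem_top g
    exact hgv (by rw [MonoidHom.mem_ker.1 this]; rfl)
  have hup : u ^ p = 1 := by
    rw [hu, ← map_pow, ← U_nsmul, mul_one, ZMod.natCast_self, U_zero, map_one]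
  obtain ⟨ζ, hζ⟩ : ∃ ζ : ℂ, IsPrimitiveRoot ζ p :=
    ⟨_, Complex.isPrimitiveRoot_exp p hp.out.ne_zero⟩
  -- the projection to an eigenspace
  have heig : ∀ j, ∀ v, u ((∑ k ∈ range p, ((ζ ^ j)⁻¹ • u) ^ k) v) =
      ζ ^ j • (∑ k ∈ range p, ((ζ ^ j)⁻¹ • u) ^ k) v := by
    intro j v
    have hz : ζ ^ j ≠ 0 := pow_ne_zero _ (hζ.ne_zero hp.out.ne_zero)
    have h := mul_geom_sum ((ζ ^ j)⁻¹ • u) p
    rw [smul_pow, hup, inv_pow, ← pow_mul, mul_comm j, pow_mul, hζ.pow_eq_one, one_pow, inv_one,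
      one_smul, sub_self, sub_mul, one_mul, sub_eq_zero] at h
    have := congrArg (fun T : Module.End ℂ (Fin n → ℂ) => ζ ^ j • T v) h
    simpa [smul_smul, mul_inv_cancel₀ hz] using this
  obtain ⟨μ, w, hμ, hμ1, hw, hwμ⟩ : ∃ μ w, μ ^ p = 1 ∧ μ ≠ (1 : ℂ) ∧ w ≠ 0 ∧ u w = μ • w := by
    by_contra! hnone
    refine hu1 ?_
    have hzero : ∀ j ∈ range p, j ≠ 0 → ∑ k ∈ range p, ((ζ ^ j)⁻¹ • u) ^ k = 0 := by
      intro j hj hj0
      refine LinearMap.ext fun v => not_not.1 fun h => ?_
      exact hnone _ _ (by rw [← pow_mul, mul_comm, pow_mul, hζ.pow_eq_one, one_pow])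
        (hζ.pow_ne_one_of_pos_of_lt hj0 (mem_range.1 hj)) h (heig j v)
    have hsum : ∑ j ∈ range p, ∑ k ∈ range p, ((ζ ^ j)⁻¹ • u) ^ k = (p : ℂ) • 1 := by
      rw [sum_comm, sum_eq_single 0]
      · simp [Nat.cast_smul_eq_nsmul]
      · intro k hk hk0
        simp_rw [smul_pow, ← sum_smul]
        have hne : (ζ ^ k)⁻¹ ≠ 1 :=
          inv_ne_one.2 (hζ.pow_ne_one_of_pos_of_lt hk0 (mem_range.1 hk))
        have : ∑ j ∈ range p, ((ζ ^ j)⁻¹) ^ k = 0 := by
          calc ∑ j ∈ range p, ((ζ ^ j)⁻¹) ^ k = ∑ j ∈ range p, ((ζ ^ k)⁻¹) ^ j :=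
                sum_congr rfl fun j _ => by rw [inv_pow, inv_pow, ← pow_mul, ← pow_mul, mul_comm]
            _ = 0 := by
              rw [geom_sum_eq hne, inv_pow, ← pow_mul, mul_comm, pow_mul, hζ.pow_eq_one, one_pow,
                inv_one, sub_self, zero_div]
        rw [this, zero_smul]
      · simp [hp.out.ne_zero]
    rw [sum_eq_single 0 hzero (by simp [hp.out.ne_zero])] at hsum
    refine LinearMap.ext fun v => ?_
    have h0 := heig 0 v
    rw [hsum] at h0
    have hp0 : (p : ℂ) ≠ 0 := Nat.cast_ne_zero.2 hp.out.ne_zero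
    simpa [hp0] using h0
  let D : (ZMod p)ˣ → SL2 (ZMod p) := fun t =>
    ⟨!![(t : ZMod p), 0; 0, (t⁻¹ : (ZMod p)ˣ)], by
      rw [det_fin_two_of, Units.mul_inv, zero_mul, sub_zero]⟩
  set Q := (univ : Finset (ZMod p)ˣ).image fun t : (ZMod p)ˣ => ((t : ZMod p) * t) with hQ
  have hQcard : (p - 1) / 2 ≤ #Q := by
    have : #(univ : Finset (ZMod p)ˣ) ≤ 2 * #Q := by
      refine card_le_mul_card_image _ 2 fun s _ => ?_
      rcases ((univ : Finset (ZMod p)ˣ).filter
        fun t : (ZMod p)ˣ => (t : ZMod p) * t = s).eq_empty_or_nonempty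
        with h | ⟨t, ht⟩
      · simp [h]
      refine (card_le_card (t := {t, -t}) fun t' ht' => ?_).trans card_le_two
      simp only [mem_filter, mem_univ, true_and] at ht ht'
      rcases mul_self_eq_mul_self_iff.1 (ht'.trans ht.symm) with h | h
      · simp [Units.ext h]
      · have : t' = -t := Units.ext (by simpa using h)
        simp [this]
    rw [card_univ, ZMod.card_units_eq_totient, Nat.totient_prime hp.out] at this
    omega
  have hex : ∀ s : Q, ∃ v : Fin n → ℂ, v ≠ 0 ∧ u v = μ ^ (s.1 : ZMod p).val • v := by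
    rintro ⟨s, hs⟩
    obtain ⟨t, -, rfl⟩ := mem_image.1 hs
    have hDU : D t * U 1 = U ((t : ZMod p) * t) * D t := by
      refine Subtype.ext ?_
      show !![(t : ZMod p), 0; 0, (t⁻¹ : (ZMod p)ˣ)] * !![1, 1; 0, 1] =
        !![1, (t : ZMod p) * t; 0, 1] * !![(t : ZMod p), 0; 0, (t⁻¹ : (ZMod p)ˣ)]
      rw [Matrix.mul_fin_two, Matrix.mul_fin_two]
      simp only [mul_one, mul_zero, zero_mul, add_zero, zero_add, one_mul, mul_assoc, Units.mul_inv]
    have hconj : U (1 : ZMod p) * (D t)⁻¹ = (D t)⁻¹ * U ((t : ZMod p) * t) := by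
      rw [eq_inv_mul_iff_mul_eq, ← mul_assoc, hDU, mul_inv_cancel_right]
    refine ⟨ρ (D t)⁻¹ w, fun h => hw ?_, ?_⟩
    · have := congrArg (ρ (D t)) h
      rwa [← Module.End.mul_apply, ← map_mul, mul_inv_cancel, map_one, map_zero] at this
    · rw [hu, ← Module.End.mul_apply, ← map_mul, hconj, map_mul, Module.End.mul_apply, hpow]
      have : ∀ m : ℕ, (u ^ m) w = μ ^ m • w := fun m => by
        induction m with
        | zero => simp
        | succ m ih => rw [pow_succ', Module.End.mul_apply, ih, map_smul, hwμ, smul_smul, pow_succ]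
      rw [this, map_smul]
  choose v hv0 hveig using hex
  have hord : orderOf μ = p := orderOf_eq_prime hμ hμ1
  have hinj : Function.Injective fun s : Q => μ ^ (s.1 : ZMod p).val := fun s s' h => by
    exact Subtype.ext (ZMod.val_injective p ((hord ▸ IsPrimitiveRoot.orderOf μ).pow_inj
      (ZMod.val_lt _) (ZMod.val_lt _) h))
  have hli : LinearIndependent ℂ v :=
    Module.End.eigenvectors_linearIndependent' u _ hinj v fun s =>
      Module.End.hasEigenvector_iff.2 ⟨Module.End.mem_eigenspace_iff.2 (hveig s), hv0 s⟩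
  have := hli.fintype_card_le_finrank
  rw [Module.finrank_fintype_fun_eq_card, Fintype.card_fin, Fintype.card_coe] at this
  omega

end FA.Helfgott

end
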