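import Fermat.Agent.Helfgott.Tori
import Fermat.Agent.Helfgott.Quasirandom
import Mathlib.Combinatorics.Additive.SmallTripling
import Mathlib.Data.Nat.Log

/-!
# Growth in `SL₂ (𝔽_p)`

The theorem of Helfgott: a generating set either has `A A A = G` or `|A A A| ≥ |A| ^ (1 + δ)`, so
the diameter is polylogarithmic in `|G|`.
-/

set_option autoImplicit false

noncomputable section

namespace FA.Helfgott

open FA.StrongApprox Finset
open scoped Pointwise

variable {p : ℕ} [hp : Fact p.Prime]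

/-- Ruzsa: powers of a symmetric set are controlled by its cube. -/
theorem card_pow_mul_le {G : Type*} [Group G] [DecidableEq G] {A : Finset G} (hA : A⁻¹ = A)
    (hne : A.Nonempty) (m : ℕ) :
    #(A ^ (m + 3)) * #A ^ m ≤ #(A ^ 3) ^ (m + 1) := by
  have hN : (0 : ℝ) < #A := by exact_mod_cast hne.card_pos
  have h := small_pow_of_small_tripling (K := (#(A ^ 3) : ℝ) / #A) (m := m + 3) (by omega)
    (by rw [div_mul_cancel₀ _ hN.ne']) hA
  rw [show m + 3 - 2 = m + 1 by omega, div_pow, div_mul_eq_mul_div,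
    le_div_iff₀ (pow_pos hN _), pow_succ (#A : ℝ) m, ← mul_assoc,
    mul_le_mul_iff_left₀ hN] at h
  exact_mod_cast h

/-- A generating set grows. -/
theorem card_lt_card_pow_three {A : Finset (SL2 (ZMod p))} (h1 : 1 ∈ A) (hA : A⁻¹ = A)
    (hgen : Subgroup.closure (A : Set (SL2 (ZMod p))) = ⊤) (hne : A ^ 3 ≠ univ) :
    #A < #(A ^ 3) := by
  have hsub : A ⊆ A ^ 3 := fun x hx =>
    Finset.pow_subset_pow_right h1 (show 1 ≤ 3 by norm_num) (by rwa [pow_one])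
  refine lt_of_le_of_ne (card_le_card hsub) fun he => hne ?_
  have heq : A = A ^ 3 := eq_of_subset_of_card_le hsub he.ge
  let H : Subgroup (SL2 (ZMod p)) :=
    { carrier := A
      one_mem' := h1
      mul_mem' := fun {x y} hx hy => by
        rw [mem_coe, heq]
        exact Finset.pow_subset_pow_right h1 (show 2 ≤ 3 by norm_num)
          (by rw [pow_two]; exact mul_mem_mul hx hy)
      inv_mem' := fun {x} hx => hA ▸ Finset.inv_mem_inv hx }
  have : (H : Subgroup _) = ⊤ := top_le_iff.1 (hgen ▸ (Subgroup.closure_le H).2 fun x hx => hx)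
  refine eq_univ_of_forall fun x => hsub ?_
  exact (this ▸ Subgroup.mem_top x : x ∈ H)

/-- The growth inequality with a constant. -/
theorem growth_core {A : Finset (SL2 (ZMod p))} (h1 : 1 ∈ A) (hA : A⁻¹ = A)
    (hgen : Subgroup.closure (A : Set (SL2 (ZMod p))) = ⊤) :
    A ^ 3 = univ ∨ #A ^ 637 ≤ 2 ^ 160 * #(A ^ 3) ^ 636 := by
  refine or_iff_not_imp_left.2 fun hne => ?_
  have hle := (card_lt_card_pow_three h1 hA hgen hne).le
  have hN := (card_pos.2 ⟨1, h1⟩)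
  have triv : ∀ c, c ≤ 2 ^ 160 → #A ≤ c → #A ^ 637 ≤ 2 ^ 160 * #(A ^ 3) ^ 636 := fun c hc h => by
    rw [show 637 = 1 + 636 from rfl, pow_add, pow_one]
    exact Nat.mul_le_mul (h.trans hc) (Nat.pow_le_pow_left hle 636)
  by_cases h8 : #A ≤ 8
  · exact triv 8
      (le_trans (by norm_num) (Nat.pow_le_pow_right two_pos (show 3 ≤ 160 by norm_num))) h8
  rcases Nat.lt_or_ge p 5 with hp5 | hp5
  · refine triv (5 ^ 3)
      (le_trans (by norm_num) (Nat.pow_le_pow_right two_pos (show 7 ≤ 160 by norm_num)))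
      (((card_le_univ A).trans card_SL2_le).trans (Nat.pow_le_pow_left hp5.le 3))
  have h80 := card_pow_mul_le hA ⟨1, h1⟩ 77
  have h2le : #(A ^ 2) ≤ #(A ^ 3) := card_le_card (Finset.pow_subset_pow_right h1 (by norm_num))
  rcases tori_dichotomy hp5 hA h1 hgen (by omega) with h | h
  · have e : #A ^ 157 ≤ 2 ^ 35 * #(A ^ 3) ^ 156 := by
      calc #A ^ 157 = #A ^ 3 * (#A ^ 77) ^ 2 := by rw [← pow_mul, ← pow_add]
        _ ≤ 2 ^ 35 * #(A ^ 80) ^ 2 * (#A ^ 77) ^ 2 := Nat.mul_le_mul_right _ h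
        _ = 2 ^ 35 * (#(A ^ 80) * #A ^ 77) ^ 2 := by rw [mul_pow, mul_assoc]
        _ ≤ 2 ^ 35 * (#(A ^ 3) ^ 78) ^ 2 := Nat.mul_le_mul_left _ (Nat.pow_le_pow_left h80 2)
        _ = _ := by rw [← pow_mul]
    calc #A ^ 637 = #A ^ 157 * #A ^ 480 := by rw [← pow_add]
      _ ≤ 2 ^ 35 * #(A ^ 3) ^ 156 * #(A ^ 3) ^ 480 :=
          Nat.mul_le_mul e (Nat.pow_le_pow_left hle 480)
      _ = 2 ^ 35 * #(A ^ 3) ^ 636 := by rw [mul_assoc, ← pow_add]
      _ ≤ _ := Nat.mul_le_mul_right _ (Nat.pow_le_pow_right two_pos (by norm_num))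
  have hq : ¬ (Fintype.card (SL2 (ZMod p)) ^ 3 < (p - 1) / 2 * (#A * #A * #A)) := fun hlt =>
    hne (by rw [pow_three']; exact mul_mul_eq_univ quasirandom_SL2 hlt)
  have hN9 : #A ^ 9 ≤ 27 * p ^ 24 := by
    have h3 : (p - 1) / 2 * (#A * #A * #A) ≤ p ^ 9 :=
      (not_lt.1 hq).trans ((Nat.pow_le_pow_left card_SL2_le 3).trans (by rw [← pow_mul]))
    have hodd : p % 2 = 1 := hp.out.eq_two_or_odd.resolve_left (by omega)
    have hhalf : 2 * p ≤ 5 * ((p - 1) / 2) := by omega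
    have : p * (#A ^ 3) ≤ p * (3 * p ^ 8) := by
      have := (Nat.mul_le_mul_right (#A * #A * #A) hhalf).trans
        ((mul_assoc 5 _ _).trans_le (Nat.mul_le_mul_left 5 h3))
      rw [show #A ^ 3 = #A * #A * #A by ring, show p * (3 * p ^ 8) = 3 * p ^ 9 by ring]
      rw [mul_assoc] at this
      omega
    calc #A ^ 9 = (#A ^ 3) ^ 3 := by rw [← pow_mul]
      _ ≤ (3 * p ^ 8) ^ 3 := Nat.pow_le_pow_left (Nat.le_of_mul_le_mul_left this hp.out.pos) 3
      _ = _ := by rw [mul_pow, ← pow_mul]; norm_num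
  have e : p ^ 6 * #A ^ 157 ≤ 2 ^ 36 * #(A ^ 3) ^ 159 := by
    calc p ^ 6 * #A ^ 157 = p ^ 6 * #A ^ 3 * (#A ^ 77) ^ 2 := by
          rw [mul_assoc, ← pow_mul, ← pow_add]
      _ ≤ 2 ^ 36 * #(A ^ 2) ^ 3 * #(A ^ 80) ^ 2 * (#A ^ 77) ^ 2 := Nat.mul_le_mul_right _ h
      _ = 2 ^ 36 * #(A ^ 2) ^ 3 * (#(A ^ 80) * #A ^ 77) ^ 2 := by rw [mul_pow, mul_assoc]
      _ ≤ 2 ^ 36 * #(A ^ 3) ^ 3 * (#(A ^ 3) ^ 78) ^ 2 := Nat.mul_le_mul
          (Nat.mul_le_mul_left _ (Nat.pow_le_pow_left h2le 3)) (Nat.pow_le_pow_left h80 2)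
      _ = _ := by rw [← pow_mul, mul_assoc, ← pow_add]
  calc #A ^ 637 = #A ^ 9 * (#A ^ 157) ^ 4 := by rw [← pow_mul, ← pow_add]
    _ ≤ 27 * p ^ 24 * (#A ^ 157) ^ 4 := Nat.mul_le_mul_right _ hN9
    _ = 27 * (p ^ 6 * #A ^ 157) ^ 4 := by rw [mul_assoc, mul_pow, ← pow_mul p 6 4]
    _ ≤ 27 * (2 ^ 36 * #(A ^ 3) ^ 159) ^ 4 := Nat.mul_le_mul_left _ (Nat.pow_le_pow_left e 4)
    _ = 27 * 2 ^ 144 * #(A ^ 3) ^ 636 := by rw [mul_pow, ← pow_mul, ← pow_mul, mul_assoc]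
    _ ≤ 2 ^ 160 * #(A ^ 3) ^ 636 := by
      refine Nat.mul_le_mul_right _ ?_
      calc 27 * 2 ^ 144 ≤ 2 ^ 5 * 2 ^ 144 := Nat.mul_le_mul_right _ (by norm_num)
        _ ≤ _ := by rw [← pow_add]; exact Nat.pow_le_pow_right two_pos (by norm_num)

/-- First order binomial bound. -/
theorem pow_succ_add_le (a n : ℕ) : a ^ (n + 1) + (n + 1) * a ^ n ≤ (a + 1) ^ (n + 1) := by
  induction n with
  | zero => simp
  | succ n ih =>
    calc a ^ (n + 2) + (n + 1 + 1) * a ^ (n + 1)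
        ≤ (a ^ (n + 1) + (n + 1) * a ^ n) * (a + 1) := by
          nlinarith [Nat.zero_le ((n + 1) * a ^ n), show a ^ (n + 1) = a ^ n * a from pow_succ a n,
            show a ^ (n + 2) = a ^ (n + 1) * a from pow_succ a (n + 1)]
      _ ≤ (a + 1) ^ (n + 1) * (a + 1) := Nat.mul_le_mul_right _ ih
      _ = _ := (pow_succ _ _).symm

/-- Turning the constant into an exponent. -/
theorem exists_exponent (c R : ℕ) (hR : 0 < R) :
    ∃ M : ℕ, 0 < M ∧ ∀ N T : ℕ, 0 < N → N < T → N ^ (R + 1) ≤ c * T ^ R →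
      N ^ (M + 1) ≤ T ^ M := by
  refine ⟨2 * R + (c ^ 2 + 1) ^ 2, by omega, fun N T hN hNT h => ?_⟩
  set M := 2 * R + (c ^ 2 + 1) ^ 2 with hM
  by_cases hc : c ^ 2 ≤ N
  · have key : N ^ (2 * R + 1) ≤ T ^ (2 * R) := by
      refine Nat.le_of_mul_le_mul_left (a := N ^ (2 * R + 1)) (c := N) ?_ hN
      calc N * N ^ (2 * R + 1) = (N ^ (R + 1)) ^ 2 := by rw [← pow_mul, ← pow_succ']; ring_nf
        _ ≤ (c * T ^ R) ^ 2 := Nat.pow_le_pow_left h 2
        _ = c ^ 2 * T ^ (2 * R) := by rw [mul_pow, ← pow_mul, mul_comm R]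
        _ ≤ N * T ^ (2 * R) := Nat.mul_le_mul_right _ hc
    calc N ^ (M + 1) = N ^ (2 * R + 1) * N ^ (M - 2 * R) := by
          rw [← pow_add]; congr 1; omega
      _ ≤ T ^ (2 * R) * T ^ (M - 2 * R) := Nat.mul_le_mul key (Nat.pow_le_pow_left hNT.le _)
      _ = T ^ M := by rw [← pow_add]; congr 1; omega
  obtain ⟨n, hn⟩ : ∃ n, M = n + 1 := ⟨M - 1, by omega⟩
  have hMN : N * N ≤ M := by
    have : N * N ≤ (c ^ 2 + 1) ^ 2 := by
      rw [pow_two (c ^ 2 + 1)]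
      exact Nat.mul_le_mul (by omega) (by omega)
    omega
  calc N ^ (M + 1) = N ^ n * (N * N) := by rw [hn, pow_succ, pow_succ, mul_assoc]
    _ ≤ N ^ n * M := Nat.mul_le_mul_left _ hMN
    _ ≤ N ^ M + M * N ^ n := by rw [mul_comm]; exact Nat.le_add_left _ _
    _ ≤ (N + 1) ^ M := by rw [hn]; exact pow_succ_add_le N n
    _ ≤ T ^ M := Nat.pow_le_pow_left hNT M

/-- **The theorem of Helfgott.** -/
theorem growth : ∃ M : ℕ, 0 < M ∧ ∀ (p : ℕ) [Fact p.Prime] (A : Finset (SL2 (ZMod p))), 1 ∈ A →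
    A⁻¹ = A → Subgroup.closure (A : Set (SL2 (ZMod p))) = ⊤ →
      A ^ 3 = univ ∨ #A ^ (M + 1) ≤ #(A ^ 3) ^ M := by
  obtain ⟨M, hM, h⟩ := exists_exponent (2 ^ 160) 636 (by norm_num)
  refine ⟨M, hM, fun p _ A h1 hA hgen => or_iff_not_imp_left.2 fun hne => ?_⟩
  exact h _ _ (card_pos.2 ⟨1, h1⟩) (card_lt_card_pow_three h1 hA hgen hne)
    ((growth_core h1 hA hgen).resolve_left hne)

/-- **The diameter.** -/
theorem diameter : ∃ C : ℕ, ∀ (p : ℕ) [Fact p.Prime] (A : Finset (SL2 (ZMod p))), 1 ∈ A →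
    A⁻¹ = A → Subgroup.closure (A : Set (SL2 (ZMod p))) = ⊤ →
      A ^ ((2 * Nat.log 2 (Fintype.card (SL2 (ZMod p)))) ^ C) = univ := by
  obtain ⟨M, hM, hgr⟩ := growth
  refine ⟨2 * M, fun p hp A h1 hA hgen => ?_⟩
  have hN : 2 ≤ #A := by
    by_contra! h
    have : A = {1} := eq_singleton_iff_unique_mem.2
      ⟨h1, fun x hx => card_le_one.1 (by omega) x hx 1 h1⟩
    rw [this, coe_singleton, Subgroup.closure_singleton_one] at hgen
    have h : U (1 : ZMod p) ∈ (⊥ : Subgroup (SL2 (ZMod p))) := hgen ▸ Subgroup.mem_top _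
    have h' : U (1 : ZMod p) = U 0 := (Subgroup.mem_bot.1 h).trans U_zero.symm
    exact one_ne_zero (congrFun (congrFun (congrArg Subtype.val h') 0) 1)
  have key : ∀ k, A ^ 3 ^ k = univ ∨ #A ^ (M + 1) ^ k ≤ #(A ^ 3 ^ k) ^ M ^ k := by
    intro k
    induction k with
    | zero => simp
    | succ k ih =>
      have hpow : (A ^ 3 ^ k) ^ 3 = A ^ 3 ^ (k + 1) := by rw [← pow_mul, ← pow_succ]
      have hsub : A ^ 3 ^ k ⊆ A ^ 3 ^ (k + 1) := Finset.pow_subset_pow_right h1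
        (Nat.pow_le_pow_right (by norm_num) k.le_succ)
      rcases ih with ih | ih
      · exact .inl (eq_univ_of_forall fun x => hsub (ih ▸ mem_univ x))
      have h1' : (1 : SL2 (ZMod p)) ∈ A ^ 3 ^ k :=
        Finset.pow_subset_pow_right h1 (Nat.zero_le _) (by simp)
      rcases hgr p (A ^ 3 ^ k) h1' (by rw [← inv_pow, hA])
        (top_le_iff.1 (hgen ▸ Subgroup.closure_mono fun z hz =>
          Finset.pow_subset_pow_right h1 (Nat.one_le_pow k 3 (by norm_num)) (by simpa using hz)))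
        with hu | hle
      · exact .inl (hpow ▸ hu)
      refine .inr ?_
      rw [hpow] at hle
      calc #A ^ (M + 1) ^ (k + 1) = (#A ^ (M + 1) ^ k) ^ (M + 1) := by rw [← pow_mul, ← pow_succ]
        _ ≤ (#(A ^ 3 ^ k) ^ M ^ k) ^ (M + 1) := Nat.pow_le_pow_left ih _
        _ = (#(A ^ 3 ^ k) ^ (M + 1)) ^ M ^ k := by rw [← pow_mul, ← pow_mul, mul_comm]
        _ ≤ (#(A ^ 3 ^ (k + 1)) ^ M) ^ M ^ k := Nat.pow_le_pow_left hle _
        _ = _ := by rw [← pow_mul, ← pow_succ']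
  set g := Fintype.card (SL2 (ZMod p)) with hg
  have hg4 : 4 ≤ g := by
    refine le_trans ?_ le_card_SL2
    have := hp.out.two_le
    calc 4 = 2 * 2 * 1 := rfl
      _ ≤ _ := Nat.mul_le_mul (Nat.mul_le_mul this this) (by omega)
  set l := Nat.log 2 g
  have hl : 1 ≤ l := Nat.log_pos one_lt_two (by omega)
  set j := Nat.log 2 l + 1
  have hj : l < 2 ^ j := Nat.lt_pow_succ_log_self one_lt_two l
  have hj' : 2 ^ j ≤ 2 * l := by
    rw [pow_succ']
    exact Nat.mul_le_mul_left 2 (Nat.pow_log_le_self 2 (by omega))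
  have hfull : A ^ 3 ^ (j * M) = univ := by
    refine (key (j * M)).resolve_right fun h => ?_
    have hexp : 2 ^ j * M ^ (j * M) ≤ (M + 1) ^ (j * M) := by
      rw [mul_comm j M, pow_mul, pow_mul, ← mul_pow]
      refine Nat.pow_le_pow_left ?_ j
      obtain ⟨n, rfl⟩ : ∃ n, M = n + 1 := ⟨M - 1, by omega⟩
      refine le_trans (le_of_eq ?_) (pow_succ_add_le (n + 1) n)
      rw [pow_succ (n + 1) n]
      ring
    have h2 : (2 ^ 2 ^ j) ^ M ^ (j * M) ≤ #(A ^ 3 ^ (j * M)) ^ M ^ (j * M) := by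
      rw [← pow_mul]
      refine le_trans ?_ h
      exact (Nat.pow_le_pow_right two_pos hexp).trans (Nat.pow_le_pow_left hN _)
    have h3 := (Nat.pow_le_pow_iff_left (pow_ne_zero _ hM.ne')).1 h2
    have h4 : g < 2 ^ 2 ^ j :=
      lt_of_lt_of_le (Nat.lt_pow_succ_log_self one_lt_two g) (Nat.pow_le_pow_right two_pos hj)
    exact absurd ((h4.trans_le h3).trans_le (card_le_univ _)) (lt_irrefl g)
  refine eq_univ_of_forall fun x => Finset.pow_subset_pow_right h1 ?_ (hfull ▸ mem_univ x)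
  calc 3 ^ (j * M) ≤ 4 ^ (j * M) := Nat.pow_le_pow_left (by norm_num) _
    _ = (2 ^ j) ^ (2 * M) := by
      rw [show 4 = 2 ^ 2 from rfl, ← pow_mul, ← pow_mul]; ring_nf
    _ ≤ _ := Nat.pow_le_pow_left hj' _

end FA.Helfgott

end
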