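import Fermat.Agent.StrongApproximation.Basic
import Mathlib.GroupTheory.Subgroup.Centralizer
import Mathlib.LinearAlgebra.Matrix.Trace
import Mathlib.Tactic.FieldSimp

/-!
# Elements of `SL₂` by their traces

The centraliser of an element whose trace is not `±2` meets a trace class in at most two elements,
and such an element fixes at most two lines.
-/

set_option autoImplicit false

noncomputable section

namespace FA.Helfgott

open Matrix FA.StrongApprox

variable {F : Type*} [Field F]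

/-- The trace. -/
def tr (x : SL2 F) : F := x.1 0 0 + x.1 1 1

theorem det_eq (x : SL2 F) : x.1 0 0 * x.1 1 1 - x.1 0 1 * x.1 1 0 = 1 := by
  have := x.2
  rwa [det_fin_two] at this

theorem tr_eq_trace (x : SL2 F) : tr x = Matrix.trace x.1 := (trace_fin_two _).symm

theorem tr_mul_comm (x y : SL2 F) : tr (x * y) = tr (y * x) := by
  rw [tr_eq_trace, tr_eq_trace]
  exact Matrix.trace_mul_comm _ _

theorem tr_conj (g x : SL2 F) : tr (g * x * g⁻¹) = tr x := by
  rw [tr_mul_comm, inv_mul_cancel_left]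

theorem tr_conj' (g x : SL2 F) : tr (g⁻¹ * x * g) = tr x := by
  simpa using tr_conj g⁻¹ x

theorem tr_inv (x : SL2 F) : tr x⁻¹ = tr x := by
  simp [tr, SpecialLinearGroup.coe_inv, adjugate_fin_two, add_comm]

/-- Regular semisimple, of non-zero trace. -/
def Good (x : SL2 F) : Prop := tr x ≠ 0 ∧ tr x ^ 2 ≠ 4

theorem Good.conj {x : SL2 F} (h : Good x) (g : SL2 F) : Good (g * x * g⁻¹) := by
  rwa [Good, tr_conj]

/-- The commutant of a non-scalar matrix is spanned by it and the scalars. -/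
theorem exists_lin_of_commute {x y : SL2 F} (hx : tr x ^ 2 ≠ 4) (h : Commute x y) :
    ∃ α β : F, y.1 0 0 = α + β * x.1 0 0 ∧ y.1 1 1 = α + β * x.1 1 1 ∧
      y.1 0 1 = β * x.1 0 1 ∧ y.1 1 0 = β * x.1 1 0 := by
  have e := congrArg Subtype.val h.eq
  have e00 := congrFun (congrFun e 0) 0
  have e01 := congrFun (congrFun e 0) 1
  have e10 := congrFun (congrFun e 1) 0
  simp [Matrix.mul_apply, Fin.sum_univ_two] at e00 e01 e10
  by_cases h01 : x.1 0 1 = 0
  · by_cases h10 : x.1 1 0 = 0
    · have hd : x.1 0 0 - x.1 1 1 ≠ 0 := fun he => hx (by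
        have := det_eq x
        rw [h01] at this
        simp only [tr]
        linear_combination (x.1 0 0 - x.1 1 1) * he + 4 * this)
      set β := (y.1 0 0 - y.1 1 1) / (x.1 0 0 - x.1 1 1) with hβ
      refine ⟨y.1 0 0 - β * x.1 0 0, β, by ring, ?_, ?_, ?_⟩
      · rw [hβ]
        field_simp
        ring
      · rw [h01] at e01 ⊢
        rw [mul_zero]
        refine (mul_left_inj' hd).1 ?_
        linear_combination e01
      · rw [h10] at e10 ⊢
        rw [mul_zero]
        refine (mul_left_inj' hd).1 ?_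
        linear_combination -e10
    · refine ⟨y.1 0 0 - y.1 1 0 / x.1 1 0 * x.1 0 0, y.1 1 0 / x.1 1 0, by ring, ?_, ?_, ?_⟩
      all_goals field_simp
      · linear_combination -e10
      · linear_combination -e00
  · refine ⟨y.1 0 0 - y.1 0 1 / x.1 0 1 * x.1 0 0, y.1 0 1 / x.1 0 1, by ring, ?_, ?_, ?_⟩
    all_goals field_simp
    · linear_combination e01
    · linear_combination e00

/-- Elements commuting with a regular semisimple one commute. -/
theorem commute_of_commute {x y z : SL2 F} (hx : tr x ^ 2 ≠ 4) (hy : Commute x y)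
    (hz : Commute x z) : Commute y z := by
  obtain ⟨α, β, a, b, c, d⟩ := exists_lin_of_commute hx hy
  obtain ⟨α', β', a', b', c', d'⟩ := exists_lin_of_commute hx hz
  refine Subtype.ext ?_
  ext i j
  fin_cases i <;> fin_cases j <;>
    simp [Matrix.mul_apply, Fin.sum_univ_two, a, b, c, d, a', b', c', d'] <;> ring

/-- **A torus meets a trace class in at most two elements.** -/
theorem eq_or_eq_inv {x y z : SL2 F} (h2 : (2 : F) ≠ 0) (hx : tr x ^ 2 ≠ 4) (hy : Commute x y)
    (hz : Commute x z) (htr : tr y = tr z) : z = y ∨ z = y⁻¹ := by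
  obtain ⟨α, β, a, b, c, d⟩ := exists_lin_of_commute hx hy
  obtain ⟨α', β', a', b', c', d'⟩ := exists_lin_of_commute hx hz
  have dy := det_eq y
  have dz := det_eq z
  have dx := det_eq x
  rw [a, b, c, d] at dy
  rw [a', b', c', d'] at dz
  simp only [tr, a, b, a', b'] at htr hx
  have hsq : β ^ 2 * ((x.1 0 0 + x.1 1 1) ^ 2 - 4) = β' ^ 2 * ((x.1 0 0 + x.1 1 1) ^ 2 - 4) := by
    linear_combination 4 * dz - 4 * dy +
      (2 * α + β * (x.1 0 0 + x.1 1 1) + 2 * α' + β' * (x.1 0 0 + x.1 1 1)) * htr +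
      4 * (β' ^ 2 - β ^ 2) * dx * (-1)
  rcases sq_eq_sq_iff_eq_or_eq_neg.1 (mul_right_cancel₀ (sub_ne_zero.2 hx) hsq) with h | h
  · have hα : α' = α := mul_left_cancel₀ h2 (by rw [← h] at htr; linear_combination -htr)
    left
    refine Subtype.ext ?_
    ext i j
    fin_cases i <;> fin_cases j <;> simp [a, b, c, d, a', b', c', d', h, hα]
  · have hα : α' = α + β * (x.1 0 0 + x.1 1 1) :=
      mul_left_cancel₀ h2 (by rw [h] at htr ⊢; linear_combination -htr)
    right
    refine Subtype.ext ?_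
    ext i j
    fin_cases i <;> fin_cases j <;>
      simp [SpecialLinearGroup.coe_inv, adjugate_fin_two, a, b, c, d, a', b', c', d', h, hα] <;>
      ring

/-- Upper triangular in the basis `P`. -/
def borel (P : SL2 F) : Subgroup (SL2 F) where
  carrier := {x | (P⁻¹ * x * P).1 1 0 = 0}
  one_mem' := by
    show (P⁻¹ * 1 * P).1 1 0 = 0
    rw [mul_one, inv_mul_cancel]
    simp
  mul_mem' {x y} hx hy := by
    simp only [Set.mem_ofPred_eq] at hx hy ⊢
    rw [show P⁻¹ * (x * y) * P = P⁻¹ * x * P * (P⁻¹ * y * P) by group,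
      SpecialLinearGroup.coe_mul, Matrix.mul_apply, Fin.sum_univ_two, hx, hy]
    ring
  inv_mem' {x} hx := by
    simp only [Set.mem_ofPred_eq] at hx ⊢
    rw [show P⁻¹ * x⁻¹ * P = (P⁻¹ * x * P)⁻¹ by group, SpecialLinearGroup.coe_inv, adjugate_fin_two]
    simp [hx]

theorem mem_borel {P x : SL2 F} : x ∈ borel P ↔ (P⁻¹ * x * P).1 1 0 = 0 := Iff.rfl

theorem borel_ne_top (P : SL2 F) : borel P ≠ ⊤ := fun h => by
  have := mem_borel.1 (h ▸ Subgroup.mem_top (P * L 1 * P⁻¹))
  simp [mul_assoc, L] at this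

/-- The Borel group depends on the first column of `P` up to a scalar. -/
theorem borel_mul {P b : SL2 F} (hb : b.1 1 0 = 0) : borel (P * b) = borel P := by
  ext x
  rw [mem_borel, mem_borel, show (P * b)⁻¹ * x * (P * b) = b⁻¹ * (P⁻¹ * x * P) * b by group]
  generalize P⁻¹ * x * P = y
  have hd := det_eq b
  rw [hb] at hd
  have h0 : b.1 0 0 ≠ 0 := fun h => by simp [h] at hd
  simp [Matrix.mul_apply, Matrix.vecMul, dotProduct, Fin.sum_univ_two, SpecialLinearGroup.coe_inv,
    adjugate_fin_two, hb, h0]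

/-- **A regular semisimple element fixes at most two lines.** -/
theorem borel_cases {v P P' P'' : SL2 F} (hv : tr v ^ 2 ≠ 4) (h : v ∈ borel P)
    (h' : v ∈ borel P') (h'' : v ∈ borel P'') :
    borel P' = borel P ∨ borel P'' = borel P ∨ borel P'' = borel P' := by
  set w := P⁻¹ * v * P with hw
  have hw0 : w.1 1 0 = 0 := h
  have hwt : w.1 0 0 - w.1 1 1 ≠ 0 := fun he => hv (by
    have := det_eq w
    rw [hw0] at this
    have ht : tr v = tr w := (tr_conj' P v).symm
    rw [ht]
    simp only [tr]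
    linear_combination (w.1 0 0 - w.1 1 1) * he + 4 * this)
  have key : ∀ R : SL2 F, v ∈ borel R → (P⁻¹ * R).1 1 0 = 0 ∨
      (P⁻¹ * R).1 0 0 * (w.1 1 1 - w.1 0 0) = w.1 0 1 * (P⁻¹ * R).1 1 0 := by
    intro R hR
    rw [mem_borel, show R⁻¹ * v * R = (P⁻¹ * R)⁻¹ * w * (P⁻¹ * R) by rw [hw]; group] at hR
    generalize P⁻¹ * R = k at hR ⊢
    simp [Matrix.mul_apply, Matrix.vecMul, dotProduct, Fin.sum_univ_two,
      SpecialLinearGroup.coe_inv, adjugate_fin_two,
      hw0] at hR
    refine or_iff_not_imp_left.2 fun hc => mul_left_cancel₀ hc ?_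
    linear_combination hR
  have hmul : ∀ R : SL2 F, (P⁻¹ * R).1 1 0 = 0 → borel R = borel P := fun R hR => by
    conv_lhs => rw [show R = P * (P⁻¹ * R) by group]
    exact borel_mul hR
  rcases key P' h' with e' | e'
  · exact .inl (hmul _ e')
  rcases key P'' h'' with e'' | e''
  · exact .inr (.inl (hmul _ e''))
  refine .inr (.inr ?_)
  rw [show P'' = P' * ((P⁻¹ * P')⁻¹ * (P⁻¹ * P'')) by group]
  refine borel_mul ?_
  generalize P⁻¹ * P' = k at e'
  generalize P⁻¹ * P'' = l at e''
  simp [Matrix.mul_apply, Fin.sum_univ_two, SpecialLinearGroup.coe_inv, adjugate_fin_two]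
  refine (mul_left_inj' hwt).1 ?_
  linear_combination k.1 1 0 * e'' - l.1 1 0 * e'

/-- A nilpotent matrix gives a Borel group. -/
theorem exists_borel {E : Matrix (Fin 2) (Fin 2) F} (hE : E ≠ 0) (h1 : E 0 0 + E 1 1 = 0)
    (h2 : E 0 0 * E 1 1 - E 0 1 * E 1 0 = 0) :
    ∃ P : SL2 F, ∀ x : SL2 F, (E * x.1).trace = 0 → x ∈ borel P := by
  have h11 : E 1 1 = -E 0 0 := by linear_combination h1
  rw [h11] at h2
  by_cases hf : E 0 1 = 0
  · rw [hf] at h2
    have he : E 0 0 = 0 := pow_eq_zero_iff two_ne_zero |>.1 (by linear_combination -h2)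
    have hg : E 1 0 ≠ 0 := fun hg => hE (by
      ext i j
      fin_cases i <;> fin_cases j <;> simp [he, hf, hg, h11])
    refine ⟨⟨!![0, -1; 1, 0], by simp [det_fin_two]⟩, fun x hx => ?_⟩
    simp [trace_fin_two, Matrix.mul_apply, Fin.sum_univ_two, he, hf, h11] at hx
    simp [mem_borel, Matrix.mul_apply, Matrix.vecMul, dotProduct, Fin.sum_univ_two,
      SpecialLinearGroup.coe_inv,
      adjugate_fin_two, hx.resolve_left hg]
  · refine ⟨⟨!![E 0 1, 0; -E 0 0, (E 0 1)⁻¹], by simp [det_fin_two, hf]⟩, fun x hx => ?_⟩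
    simp [trace_fin_two, Matrix.mul_apply, Fin.sum_univ_two, h11] at hx
    simp [mem_borel, Matrix.mul_apply, Matrix.vecMul, dotProduct, Fin.sum_univ_two,
      SpecialLinearGroup.coe_inv,
      adjugate_fin_two]
    linear_combination E 0 1 * hx + x.1 0 1 * h2

/-- The unipotent group in the basis `P`. -/
def InU (P x : SL2 F) : Prop := (P⁻¹ * x * P).1 1 0 = 0 ∧ (P⁻¹ * x * P).1 0 0 = 1

/-- Two elements of a Borel group and of a trace class differ by a unipotent, or are swapped. -/
theorem borel_class {P x y : SL2 F} (hx : x ∈ borel P) (hy : y ∈ borel P) (ht : tr x = tr y) :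
    InU P (x⁻¹ * y) ∨ (P⁻¹ * y * P).1 0 0 = (P⁻¹ * x * P).1 1 1 := by
  have h := tr_conj' P x
  have h' := tr_conj' P y
  rw [InU, show P⁻¹ * (x⁻¹ * y) * P = (P⁻¹ * x * P)⁻¹ * (P⁻¹ * y * P) by group]
  rw [← h, ← h'] at ht
  rw [mem_borel] at hx hy
  generalize P⁻¹ * x * P = a at hx ht ⊢
  generalize P⁻¹ * y * P = b at hy ht ⊢
  have da := det_eq a
  have db := det_eq b
  rw [hx] at da
  rw [hy] at db
  simp only [tr] at ht
  by_cases e : b.1 0 0 = a.1 1 1
  · exact .inr e
  refine .inl ⟨by simp [Matrix.mul_apply, Fin.sum_univ_two, SpecialLinearGroup.coe_inv,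
    adjugate_fin_two, hx, hy], ?_⟩
  have e' : b.1 0 0 = a.1 0 0 := sub_eq_zero.1 ((mul_eq_zero.1 (show
    (b.1 0 0 - a.1 1 1) * (b.1 0 0 - a.1 0 0) = 0 by
      linear_combination da - db - b.1 0 0 * ht)).resolve_left (sub_ne_zero.2 e))
  simp [Matrix.mul_apply, Fin.sum_univ_two, SpecialLinearGroup.coe_inv, adjugate_fin_two, hy, e']
  linear_combination da

/-- Determinant expansion. -/
theorem det_add_smul (v D : Matrix (Fin 2) (Fin 2) F) (s : F) :
    (v + s • D).det = v.det + s * (v.adjugate * D).trace + s ^ 2 * D.det := by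
  simp [det_fin_two, trace_fin_two, adjugate_fin_two, Matrix.vecMul, dotProduct]
  ring

end FA.Helfgott

end
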