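import Fermat.Agent.Helfgott.Basic
import Mathlib.Algebra.Group.Pointwise.Finset.Basic
import Mathlib.GroupTheory.Subgroup.Centralizer
import Mathlib.LinearAlgebra.Dual.Lemmas
import Mathlib.LinearAlgebra.FiniteDimensional.Lemmas

/-!
# The inequality of Larsen and Pink for trace classes

A generating symmetric set contains few elements of a given trace: `n ^ 3 ≪ |A ^ 8| ^ 2`.  A fibre
of `(x₁, x₂, x₃) ↦ (x₁ x₂, x₁ x₃)` has at most two points outside the Borel groups, and a Borel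
group contains few elements as `U a U a⁻¹ U` is large.
-/

set_option autoImplicit false

noncomputable section

namespace FA.Helfgott

open Matrix FA.StrongApprox Finset
open scoped Pointwise Classical

variable {F : Type*} [Field F]

/-- Three functionals which agree on three distinct elements of a trace class. -/
theorem fibre_degenerate {t : F} (ht : t ≠ 0) {v w u x y : SL2 F} (hv : tr v = t) (hw : tr w = t)
    (hu : tr u = t) (hx : tr x = t) (hy : tr y = t) (hwx : tr (w * (v⁻¹ * x)) = t)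
    (hwy : tr (w * (v⁻¹ * y)) = t) (hux : tr (u * (v⁻¹ * x)) = t) (huy : tr (u * (v⁻¹ * y)) = t)
    (hvw : w ≠ v) (hvu : u ≠ v) (hwu : w ≠ u) :
    x = v ∨ y = v ∨ y = x ∨ ∃ P, v ∈ borel P ∧ x ∈ borel P ∧ y ∈ borel P := by
  refine or_iff_not_imp_left.2 fun hxv => or_iff_not_imp_left.2 fun hyv =>
    or_iff_not_imp_left.2 fun hyx => ?_
  have adj_v : v.1.adjugate = t • (1 : Matrix (Fin 2) (Fin 2) F) - v.1 := by
    rw [← hv]
    ext i j
    fin_cases i <;> fin_cases j <;> simp [tr, adjugate_fin_two]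
  -- a line through `v` in the trace class is ruled
  have line : ∀ (D : Matrix (Fin 2) (Fin 2) F) (s : F) (z z' : SL2 F), D.trace = 0 → s ≠ 0 →
      s ≠ 1 → z.1 = v.1 + D → z'.1 = v.1 + s • D → D.det = 0 ∧ (v.1.adjugate * D).trace = 0 := by
    intro D s z z' _ hs0 hs1 hz hz'
    have e1 := det_add_smul v.1 D 1
    have es := det_add_smul v.1 D s
    rw [one_smul, ← hz, z.2, v.2] at e1
    rw [← hz', z'.2, v.2] at es
    have hd : D.det = 0 := by
      refine (mul_eq_zero.1 (show (s * (s - 1)) * D.det = 0 by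
        linear_combination s * e1 - es)).resolve_left (mul_ne_zero hs0 (sub_ne_zero.2 hs1))
    exact ⟨hd, by linear_combination -e1 - hd⟩
  set g₁ := (v⁻¹ * x).1 with hg₁
  set g₂ := (v⁻¹ * y).1 with hg₂
  have hv1 : v.1 * g₁ = x.1 := by rw [hg₁, ← SpecialLinearGroup.coe_mul, mul_inv_cancel_left]
  have hv2 : v.1 * g₂ = y.1 := by rw [hg₂, ← SpecialLinearGroup.coe_mul, mul_inv_cancel_left]
  simp only [tr_eq_trace, SpecialLinearGroup.coe_mul, ← hg₁, ← hg₂]
    at hv hw hu hx hy hwx hwy hux huy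
  by_cases hdep : ∃ a b c : F, (a, b, c) ≠ 0 ∧
      a • (1 : Matrix (Fin 2) (Fin 2) F) + b • g₁ + c • g₂ = 0
  · obtain ⟨a, b, c, hne, h0⟩ := hdep
    have h1 : a • v.1 + b • x.1 + c • y.1 = 0 := by
      have := congrArg (v.1 * ·) h0
      simpa [mul_add, mul_smul_comm, hv1, hv2] using this
    have hsum : a + b + c = 0 := by
      have := congrArg Matrix.trace h1
      rw [trace_add, trace_add, trace_smul, trace_smul, trace_smul, hv, hx, hy, trace_zero,
        smul_eq_mul, smul_eq_mul, smul_eq_mul, ← add_mul, ← add_mul] at this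
      exact (mul_eq_zero.1 this).resolve_right ht
    have ha : a = -(b + c) := by linear_combination hsum
    have h2 : b • (x.1 - v.1) + c • (y.1 - v.1) = 0 := by
      rw [← h1, ha]
      module
    have hc : c ≠ 0 := by
      rintro rfl
      rw [zero_smul, add_zero, smul_eq_zero] at h2
      rcases h2 with rfl | h2
      · exact hne (by simp [ha])
      · exact hxv (Subtype.ext (sub_eq_zero.1 h2))
    set D := x.1 - v.1 with hD
    set s := -b / c with hs
    have hy' : y.1 = v.1 + s • D := by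
      have h3 : c • (y.1 - v.1) = (-b) • D := by rw [neg_smul, eq_neg_of_add_eq_zero_right h2]
      rw [hs, div_eq_mul_inv, mul_comm, mul_smul, ← h3, inv_smul_smul₀ hc, add_sub_cancel]
    have htrD : D.trace = 0 := by rw [hD, trace_sub, hx, hv, sub_self]
    obtain ⟨hdet, hadj⟩ := line D s x y htrD
      (fun h => hyv (Subtype.ext (by rw [hy', h, zero_smul, add_zero])))
      (fun h => hyx (Subtype.ext (by rw [hy', h, one_smul, hD, add_sub_cancel])))
      (by rw [hD, add_sub_cancel]) hy'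
    have hDv : (D * v.1).trace = 0 := by
      rw [trace_mul_comm]
      rw [adj_v, sub_mul, smul_mul_assoc, one_mul, trace_sub, trace_smul, htrD] at hadj
      simpa using hadj
    have hDD : (D * D).trace = 0 := by
      rw [trace_fin_two] at htrD
      rw [det_fin_two] at hdet
      simp [trace_fin_two, Matrix.mul_apply, Fin.sum_univ_two]
      linear_combination (D 0 0 + D 1 1) * htrD - 2 * hdet
    have hxD : x.1 = v.1 + D := by rw [hD, add_sub_cancel]
    obtain ⟨P, hP⟩ := exists_borel (E := D) (fun h => hxv (Subtype.ext (by rw [hxD, h, add_zero])))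
      (by rw [← trace_fin_two]; exact htrD) (by rw [← det_fin_two]; exact hdet)
    refine ⟨P, hP v hDv, hP x ?_, hP y ?_⟩
    · rw [hxD, mul_add, trace_add, hDv, hDD, add_zero]
    · rw [hy', mul_add, trace_add, mul_smul_comm, trace_smul, hDv, hDD, smul_zero, add_zero]
  push Not at hdep
  set D := w.1 - v.1 with hD
  set D' := u.1 - v.1 with hD'
  let f : Matrix (Fin 2) (Fin 2) F →ₗ[F] F × F × F :=
    (traceLinearMap (Fin 2) F F).prod
      (((traceLinearMap (Fin 2) F F) ∘ₗ LinearMap.mulRight F g₁).prod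
      ((traceLinearMap (Fin 2) F F) ∘ₗ LinearMap.mulRight F g₂))
  have hf : ∀ X, f X = (X.trace, (X * g₁).trace, (X * g₂).trace) := fun X => rfl
  have hsurj : Function.Surjective f := by
    rw [← LinearMap.range_eq_top]
    by_contra hne
    obtain ⟨φ, hφ, hle⟩ := Submodule.exists_le_ker_of_lt_top _ (lt_top_iff_ne_top.2 hne)
    set a := φ (1, 0, 0)
    set b := φ (0, 1, 0)
    set c := φ (0, 0, 1)
    have hφeq : ∀ r s q : F, φ (r, s, q) = a * r + b * s + c * q := fun r s q => by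
      rw [show (r, s, q) = r • (1, 0, 0) + s • (0, 1, 0) + q • ((0, 0, 1) : F × F × F) by simp,
        map_add, map_add, map_smul, map_smul, map_smul, smul_eq_mul, smul_eq_mul, smul_eq_mul]
      ring
    refine hdep a b c (fun h => hφ (LinearMap.ext fun z => ?_)) ?_
    · obtain ⟨r, s, q⟩ := z
      simp only [Prod.mk_eq_zero] at h
      simp [hφeq, h.1, h.2.1, h.2.2]
    · refine Matrix.ext fun i j => ?_
      have := hle ⟨single j i 1, rfl⟩
      rw [LinearMap.mem_ker, hf, hφeq] at this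
      rw [trace_single_mul, trace_single_mul] at this
      fin_cases i <;> fin_cases j <;> simpa [trace_fin_two, Matrix.single] using this
  have hker : Module.finrank F (LinearMap.ker f) = 1 := by
    have := LinearMap.finrank_range_add_finrank_ker f
    rw [LinearMap.range_eq_top.2 hsurj, finrank_top, Module.finrank_prod, Module.finrank_prod,
      Module.finrank_self, Module.finrank_matrix, Fintype.card_fin, Module.finrank_self] at this
    omega
  have hvx : (v.1 * g₁).trace = t := by rw [hv1, hx]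
  have hvy : (v.1 * g₂).trace = t := by rw [hv2, hy]
  have memD : D ∈ LinearMap.ker f := by
    rw [LinearMap.mem_ker, hf, hD, trace_sub, sub_mul, sub_mul, trace_sub, trace_sub, hw, hv, hwx,
      hvx, hwy, hvy, sub_self, Prod.mk_zero_zero, Prod.mk_zero_zero]
  have memD' : D' ∈ LinearMap.ker f := by
    rw [LinearMap.mem_ker, hf, hD', trace_sub, sub_mul, sub_mul, trace_sub, trace_sub, hu, hv, hux,
      hvx, huy, hvy, sub_self, Prod.mk_zero_zero, Prod.mk_zero_zero]
  have hD0 : D ≠ 0 := sub_ne_zero.2 fun h => hvw (Subtype.ext h)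
  obtain ⟨s, hs⟩ := (finrank_eq_one_iff_of_nonzero' (⟨D, memD⟩ : LinearMap.ker f)
    (fun h => hD0 (congrArg Subtype.val h))).1 hker ⟨D', memD'⟩
  have hs' : s • D = D' := congrArg Subtype.val hs
  rw [LinearMap.mem_ker, hf, Prod.mk_eq_zero, Prod.mk_eq_zero] at memD
  obtain ⟨htrD, hD1, hD2⟩ := memD
  obtain ⟨hdet, hadj⟩ := line D s w u htrD
    (fun h => hvu (Subtype.ext (sub_eq_zero.1 (by rw [← hD', ← hs', h, zero_smul]))))
    (fun h => hwu (Subtype.ext ((sub_left_inj (a := v.1)).1 (show D = D' by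
      rw [← hs', h, one_smul]))))
    (by rw [hD, add_sub_cancel]) (by rw [hs', hD', add_sub_cancel])
  have hva : v.1.adjugate * v.1 = 1 := by rw [adjugate_mul, v.2, one_smul]
  set E := D * v.1.adjugate with hE
  have hEv : E * v.1 = D := by rw [hE, mul_assoc, hva, mul_one]
  have hE0 : E ≠ 0 := fun h => hD0 (by rw [← hEv, h, zero_mul])
  obtain ⟨P, hP⟩ := exists_borel hE0
    (by rw [← trace_fin_two, hE, trace_mul_comm, hadj]) (by
      rw [← det_fin_two, hE, det_mul, hdet, zero_mul])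
  refine ⟨P, hP v (by rw [hEv, htrD]), hP x ?_, hP y ?_⟩
  · rw [← hv1, ← mul_assoc, hEv, hD1]
  · rw [← hv2, ← mul_assoc, hEv, hD2]

variable [Fintype F] [DecidableEq F]

omit [Fintype F] in
/-- **Few unipotents**: `U a U a⁻¹ U` is large. -/
theorem card_unip_pow {A : Finset (SL2 F)} (hA : A⁻¹ = A) (h1 : 1 ∈ A)
    (hgen : Subgroup.closure (A : Set (SL2 F)) = ⊤) (P : SL2 F) :
    #((A ^ 2).filter (InU P)) ^ 3 ≤ 8 * #(A ^ 8) := by
  obtain ⟨a, haA, ha⟩ : ∃ a ∈ A, a ∉ borel P := by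
    by_contra! h
    exact borel_ne_top P (top_le_iff.1 (hgen ▸ (Subgroup.closure_le _).2 h))
  set S := (A ^ 2).filter (InU P)
  set S' := S.filter fun u => (P⁻¹ * u * P).1 0 1 ≠ 0
  have hpos : 1 ≤ #(A ^ 8) := (Finset.Nonempty.pow ⟨1, h1⟩).card_pos
  have conjU : ∀ u ∈ S, P⁻¹ * u * P = U ((P⁻¹ * u * P).1 0 1) := by
    intro u hu
    obtain ⟨h0, h00⟩ := (mem_filter.1 hu).2
    have := det_eq (P⁻¹ * u * P)
    rw [h0, h00] at this
    generalize P⁻¹ * u * P = y at this h0 h00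
    ext i j
    fin_cases i <;> fin_cases j <;> simp [U, h0, h00]
    linear_combination this
  have inj : ∀ u ∈ S, ∀ u' ∈ S, (P⁻¹ * u * P).1 0 1 = (P⁻¹ * u' * P).1 0 1 → u = u' := by
    intro u hu u' hu' h
    have : P⁻¹ * u * P = P⁻¹ * u' * P := by rw [conjU u hu, conjU u' hu', h]
    exact mul_left_cancel (mul_right_cancel this)
  have hS' : #S ≤ #S' + 1 := by
    have : #(S \ S') ≤ 1 := card_le_one.2 fun u hu u' hu' => by
      simp only [S', mem_sdiff, mem_filter, not_and, not_not] at hu hu'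
      exact inj u hu.1 u' hu'.1 ((hu.2 hu.1).trans (hu'.2 hu'.1).symm)
    have := card_le_card_sdiff_add_card (s := S) (t := S')
    omega
  have hmap : #(S ×ˢ S' ×ˢ S) ≤ #(A ^ 8) := by
    refine card_le_card_of_injOn (fun z => z.1 * (a * z.2.1 * a⁻¹) * z.2.2) ?_ ?_
    · rintro ⟨u, u', u''⟩ hz
      simp only [coe_product, Set.mem_prod, mem_coe, S', S, mem_filter] at hz
      rw [mem_coe, show (8 : ℕ) = 2 + (1 + 2 + 1) + 2 from rfl, pow_add, pow_add, pow_add, pow_add,
        pow_one]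
      exact Finset.mul_mem_mul (Finset.mul_mem_mul hz.1.1
        (Finset.mul_mem_mul (Finset.mul_mem_mul haA hz.2.1.1.1)
          (hA ▸ Finset.inv_mem_inv haA))) hz.2.2.1
    · rintro ⟨u, u', u''⟩ hz ⟨w, w', w''⟩ hz' he
      simp only [coe_product, Set.mem_prod, mem_coe, S', mem_filter] at hz hz'
      obtain ⟨hu, ⟨hu', hne⟩, hu''⟩ := hz
      obtain ⟨hw, ⟨hw', hne'⟩, hw''⟩ := hz'
      set h := P⁻¹ * a * P with hh
      have key : ∀ r r' r'' : SL2 F, P⁻¹ * (r * (a * r' * a⁻¹) * r'') * P =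
          P⁻¹ * r * P * (h * (P⁻¹ * r' * P) * h⁻¹) * (P⁻¹ * r'' * P) := fun r r' r'' => by
        rw [hh]; group
      obtain ⟨r1, hr1⟩ : ∃ r, P⁻¹ * u * P = U r := ⟨_, conjU u hu⟩
      obtain ⟨r2, hr2⟩ : ∃ r, P⁻¹ * u' * P = U r := ⟨_, conjU u' hu'⟩
      obtain ⟨r3, hr3⟩ : ∃ r, P⁻¹ * u'' * P = U r := ⟨_, conjU u'' hu''⟩
      obtain ⟨s1, hs1⟩ : ∃ r, P⁻¹ * w * P = U r := ⟨_, conjU w hw⟩
      obtain ⟨s2, hs2⟩ : ∃ r, P⁻¹ * w' * P = U r := ⟨_, conjU w' hw'⟩
      obtain ⟨s3, hs3⟩ : ∃ r, P⁻¹ * w'' * P = U r := ⟨_, conjU w'' hw''⟩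
      have he' := congrArg (fun z => P⁻¹ * z * P) (he : u * (a * u' * a⁻¹) * u'' = _)
      simp only [key, hr1, hr2, hr3, hs1, hs2, hs3] at he'
      have hc : h.1 1 0 ≠ 0 := ha
      replace hne : r2 ≠ 0 := by simpa [hr2, U] using hne
      have e10 := congrFun (congrFun (congrArg Subtype.val he') 1) 0
      have e00 := congrFun (congrFun (congrArg Subtype.val he') 0) 0
      have e11 := congrFun (congrFun (congrArg Subtype.val he') 1) 1
      simp [U, Matrix.mul_apply, Matrix.vecMul, dotProduct, Fin.sum_univ_two,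
        SpecialLinearGroup.coe_inv, adjugate_fin_two] at e10 e00 e11
      have hd := det_eq h
      have h2 : r2 = s2 := e10.resolve_right hc
      subst h2
      have hk : r2 * (h.1 1 0 * h.1 1 0) ≠ 0 := mul_ne_zero hne (mul_ne_zero hc hc)
      have h1' : r1 = s1 := mul_right_cancel₀ hk (by linear_combination -e00)
      have h3 : r3 = s3 := mul_right_cancel₀ hk (by linear_combination -e11)
      subst h1' h3
      simp only [Prod.mk.injEq]
      refine ⟨inj u hu w hw ?_, inj u' hu' w' hw' ?_, inj u'' hu'' w'' hw'' ?_⟩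
      · rw [hr1, hs1]
      · rw [hr2, hs2]
      · rw [hr3, hs3]
  rw [card_product, card_product] at hmap
  rcases Nat.lt_or_ge #S 2 with hlt | hge
  · exact (Nat.pow_le_pow_left (show #S ≤ 2 by omega) 3).trans (by omega)
  · calc #S ^ 3 = #S * #S * #S := by ring
      _ ≤ #S * (2 * #S') * #S := by gcongr; omega
      _ = 2 * (#S * (#S' * #S)) := by ring
      _ ≤ 8 * #(A ^ 8) := by omega

/-- **The inequality of Larsen and Pink.** -/
theorem larsen_pink {A : Finset (SL2 F)} (hA : A⁻¹ = A) (h1 : 1 ∈ A)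
    (hgen : Subgroup.closure (A : Set (SL2 F)) = ⊤) {t : F} (ht : t ≠ 0) (ht' : t ^ 2 ≠ 4) :
    #(A.filter fun x => tr x = t) ^ 3 ≤ 2 ^ 24 * #(A ^ 8) ^ 2 := by
  set S := A.filter fun x => tr x = t with hS
  set M := (univ : Finset (SL2 F)).sup fun P => #((A ^ 2).filter (InU P))
  obtain ⟨P₀, -, hP₀⟩ := exists_mem_eq_sup (univ : Finset (SL2 F)) univ_nonempty
    fun P => #((A ^ 2).filter (InU P))
  have hM : M ^ 3 ≤ 8 * #(A ^ 8) := by
    rw [show M = _ from hP₀]
    exact card_unip_pow hA h1 hgen P₀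
  have hB1 : 1 ≤ #(A ^ 8) := (Finset.Nonempty.pow ⟨1, h1⟩).card_pos
  have h28 : #(A ^ 2) ≤ #(A ^ 8) := card_le_card (Finset.pow_subset_pow_right h1 (by norm_num))
  have hinv : ∀ x ∈ A, x⁻¹ ∈ A := fun x hx => hA ▸ Finset.inv_mem_inv hx
  have hsq : ∀ x ∈ A, ∀ y ∈ A, x * y ∈ A ^ 2 := fun x hx y hy => by
    rw [pow_two]; exact Finset.mul_mem_mul hx hy
  have hSinv : ∀ x ∈ S, x⁻¹ ∈ S := fun x hx => by
    obtain ⟨hxA, hxt⟩ := mem_filter.1 hx
    exact mem_filter.2 ⟨hinv x hxA, by rw [tr_inv, hxt]⟩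
  -- a Borel group contains few elements of the class
  have hborel : ∀ P, #(S.filter (· ∈ borel P)) ≤ 2 * M := by
    intro P
    have hle : #((A ^ 2).filter (InU P)) ≤ M :=
      Finset.le_sup (f := fun P => #((A ^ 2).filter (InU P))) (mem_univ P)
    set T := S.filter (· ∈ borel P)
    have htr : ∀ x ∈ T, ∀ y ∈ T, tr x = tr y := fun x hx y hy =>
      ((mem_filter.1 (mem_filter.1 hx).1).2).trans (mem_filter.1 (mem_filter.1 hy).1).2.symm
    have hcls : ∀ r : F, #(T.filter fun y => (P⁻¹ * y * P).1 0 0 = r) ≤ M := by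
      intro r
      set R := T.filter fun y => (P⁻¹ * y * P).1 0 0 = r
      rcases R.eq_empty_or_nonempty with hR | ⟨x, hx⟩
      · simp [hR]
      refine le_trans ?_ hle
      refine card_le_card_of_injOn (x⁻¹ * ·) (fun y hy => ?_) fun y _ y' _ h => mul_left_cancel h
      simp only [mem_coe, mem_filter, R] at hy hx ⊢
      refine ⟨hsq _ (hinv x (mem_filter.1 (mem_filter.1 hx.1).1).1) _
        (mem_filter.1 (mem_filter.1 hy.1).1).1, ?_⟩
      rcases borel_class (mem_filter.1 hx.1).2 (mem_filter.1 hy.1).2 (htr x hx.1 y hy.1) with h | h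
      · exact h
      exfalso
      have hxd := det_eq (P⁻¹ * x * P)
      have hxt := tr_conj' P x
      rw [(mem_filter.1 (mem_filter.1 hx.1).1).2, tr] at hxt
      rw [mem_borel.1 (mem_filter.1 hx.1).2] at hxd
      rw [hy.2, ← hx.2] at h
      rw [h] at hxd hxt
      exact ht' (by linear_combination -((P⁻¹ * x * P).1 1 1 * 2 + t) * hxt + 4 * hxd)
    rcases T.eq_empty_or_nonempty with hT | ⟨x, hx⟩
    · simp [hT]
    have : T ⊆ T.filter (fun y => (P⁻¹ * y * P).1 0 0 = (P⁻¹ * x * P).1 0 0) ∪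
        T.filter fun y => (P⁻¹ * y * P).1 0 0 = (P⁻¹ * x * P).1 1 1 := by
      intro y hy
      rcases borel_class (mem_filter.1 hx).2 (mem_filter.1 hy).2 (htr x hx y hy) with h | h
      · refine mem_union_left _ (mem_filter.2 ⟨hy, ?_⟩)
        have hb := mem_borel.1 (mem_filter.1 hx).2
        have hc := mem_borel.1 (mem_filter.1 hy).2
        rw [InU, show P⁻¹ * (x⁻¹ * y) * P = (P⁻¹ * x * P)⁻¹ * (P⁻¹ * y * P) by group] at h
        have hd := det_eq (P⁻¹ * x * P)
        generalize P⁻¹ * x * P = a at h hb hd ⊢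
        generalize P⁻¹ * y * P = b at h hc ⊢
        have h00 := h.2
        rw [hb] at hd
        simp [Matrix.mul_apply, Fin.sum_univ_two,
          SpecialLinearGroup.coe_inv, adjugate_fin_two, hc] at h00
        linear_combination a.1 0 0 * h00 - b.1 0 0 * hd
      · exact mem_union_right _ (mem_filter.2 ⟨hy, h⟩)
    have := (card_le_card this).trans (card_union_le _ _)
    have := hcls ((P⁻¹ * x * P).1 0 0)
    have := hcls ((P⁻¹ * x * P).1 1 1)
    omega
  -- the triples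
  set Z := S ×ˢ S ×ˢ S
  set Bad : SL2 F × SL2 F × SL2 F → Prop := fun z =>
    ∃ P, z.1⁻¹ ∈ borel P ∧ z.2.1 ∈ borel P ∧ z.2.2 ∈ borel P
  set Deg : SL2 F × SL2 F × SL2 F → Prop := fun z =>
    z.2.1 = z.1⁻¹ ∨ z.2.2 = z.1⁻¹ ∨ z.2.2 = z.2.1
  have hgood : #(Z.filter fun z => ¬Deg z ∧ ¬Bad z) ≤ 2 * #(A ^ 2) ^ 2 := by
    refine (card_le_mul_card_image (f := fun z => (z.1 * z.2.1, z.1 * z.2.2)) _ 2 ?_).trans
      (Nat.mul_le_mul_left 2 ?_)
    · intro g _
      by_contra! hlt
      obtain ⟨a, b, c, ha, hb, hc, hab, hac, hbc⟩ := two_lt_card_iff.1 hlt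
      obtain ⟨a1, a2, a3⟩ := a
      obtain ⟨b1, b2, b3⟩ := b
      obtain ⟨c1, c2, c3⟩ := c
      simp only [mem_filter, Z, S, mem_product, Prod.ext_iff, Deg, Bad] at ha hb hc
      obtain ⟨⟨⟨⟨-, ta⟩, ⟨-, ta2⟩, -, ta3⟩, hdeg, hbad⟩, ga2, ga3⟩ := ha
      obtain ⟨⟨⟨⟨-, tb⟩, ⟨-, tb2⟩, -, tb3⟩, -, -⟩, gb2, gb3⟩ := hb
      obtain ⟨⟨⟨⟨-, tc⟩, ⟨-, tc2⟩, -, tc3⟩, -, -⟩, gc2, gc3⟩ := hc
      have q : ∀ {a b a' b' r : SL2 F}, a * b = r → a' * b' = r → a = a' → b = b' := by
        rintro a b a' b' r rfl h rfl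
        exact (mul_left_cancel h).symm
      have := fibre_degenerate ht (v := a1⁻¹) (w := b1⁻¹) (u := c1⁻¹) (x := a2) (y := a3)
        (by rwa [tr_inv]) (by rwa [tr_inv]) (by rwa [tr_inv]) ta2 ta3
        (by rwa [inv_inv, ga2, ← gb2, inv_mul_cancel_left])
        (by rwa [inv_inv, ga3, ← gb3, inv_mul_cancel_left])
        (by rwa [inv_inv, ga2, ← gc2, inv_mul_cancel_left])
        (by rwa [inv_inv, ga3, ← gc3, inv_mul_cancel_left])
        (fun h => hab (by
          have h' := (inv_inj.1 h).symm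
          rw [h', q ga2 gb2 h', q ga3 gb3 h']))
        (fun h => hac (by
          have h' := (inv_inj.1 h).symm
          rw [h', q ga2 gc2 h', q ga3 gc3 h']))
        (fun h => hbc (by
          have h' := inv_inj.1 h
          rw [h', q gb2 gc2 h', q gb3 gc3 h']))
      rcases this with h | h | h | h
      · exact hdeg (.inl h)
      · exact hdeg (.inr (.inl h))
      · exact hdeg (.inr (.inr h))
      · exact hbad h
    · rw [pow_two, ← card_product]
      refine card_le_card fun g hg => ?_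
      obtain ⟨z, hz, rfl⟩ := mem_image.1 hg
      simp only [mem_filter, Z, S, mem_product] at hz
      exact mem_product.2 ⟨hsq _ hz.1.1.1 _ hz.1.2.1.1, hsq _ hz.1.1.1 _ hz.1.2.2.1⟩
  have hdeg : #(Z.filter Deg) ≤ 3 * #S ^ 2 := by
    have h : Z.filter Deg ⊆ ((S ×ˢ S).image fun q => (q.1, q.1⁻¹, q.2)) ∪
        ((S ×ˢ S).image fun q => (q.1, q.2, q.1⁻¹)) ∪ (S ×ˢ S).image fun q => (q.1, q.2, q.2) := by
      rintro ⟨x, y, z⟩ hz
      simp only [mem_filter, Z, mem_product, Deg] at hz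
      obtain ⟨⟨hx, hy, hz'⟩, rfl | rfl | rfl⟩ := hz
      · exact mem_union_left _ (mem_union_left _ (mem_image.2 ⟨(x, z), by simp [hx, hz'], rfl⟩))
      · exact mem_union_left _ (mem_union_right _ (mem_image.2 ⟨(x, y), by simp [hx, hy], rfl⟩))
      · exact mem_union_right _ (mem_image.2 ⟨(x, z), by simp [hx, hy], rfl⟩)
    refine (card_le_card h).trans ((card_union_le _ _).trans
      (Nat.add_le_add_right (card_union_le _ _) _) |>.trans ?_)
    have key : ∀ f : SL2 F × SL2 F → SL2 F × SL2 F × SL2 F, #((S ×ˢ S).image f) ≤ #S ^ 2 :=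
      fun f => card_image_le.trans (by rw [card_product, pow_two])
    have := key fun q => (q.1, q.1⁻¹, q.2)
    have := key fun q => (q.1, q.2, q.1⁻¹)
    have := key fun q => (q.1, q.2, q.2)
    omega
  have hbad : #(Z.filter Bad) ≤ #S * (8 * M ^ 2) := by
    have hv : ∀ x ∈ S, ∃ P P', ∀ R, x⁻¹ ∈ borel R → borel R = borel P ∨ borel R = borel P' := by
      intro x hx
      have htx : tr x⁻¹ ^ 2 ≠ 4 := by rwa [tr_inv, (mem_filter.1 hx).2]
      by_cases h : ∃ P P', x⁻¹ ∈ borel P ∧ x⁻¹ ∈ borel P' ∧ borel P' ≠ borel P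
      · obtain ⟨P, P', h, h', hne⟩ := h
        exact ⟨P, P', fun R hR => by
          rcases borel_cases htx h h' hR with e | e | e
          · exact absurd e hne
          · exact .inl e
          · exact .inr e⟩
      push Not at h
      by_cases he : ∃ P, x⁻¹ ∈ borel P
      · obtain ⟨P, hP⟩ := he
        exact ⟨P, P, fun R hR => .inl (h P R hP hR)⟩
      · exact ⟨1, 1, fun R hR => absurd ⟨R, hR⟩ he⟩
    choose! P P' hPP using hv
    have h : Z.filter Bad ⊆ S.biUnion fun x => ({x} : Finset (SL2 F)) ×ˢ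
        ((S.filter (· ∈ borel (P x)) ×ˢ S.filter (· ∈ borel (P x))) ∪
          (S.filter (· ∈ borel (P' x)) ×ˢ S.filter (· ∈ borel (P' x)))) := by
      rintro ⟨x, y, z⟩ hz
      simp only [mem_filter, Z, mem_product, Bad] at hz
      obtain ⟨⟨hx, hy, hz'⟩, R, hR, hRy, hRz⟩ := hz
      refine mem_biUnion.2 ⟨x, hx, mem_product.2 ⟨mem_singleton_self x, ?_⟩⟩
      rcases hPP x hx R hR with e | e <;> rw [e] at hRy hRz
      · exact mem_union_left _ (mem_product.2 ⟨mem_filter.2 ⟨hy, hRy⟩, mem_filter.2 ⟨hz', hRz⟩⟩)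
      · exact mem_union_right _ (mem_product.2 ⟨mem_filter.2 ⟨hy, hRy⟩, mem_filter.2 ⟨hz', hRz⟩⟩)
    refine (card_le_card h).trans (card_biUnion_le_card_mul _ _ _ fun x _ => ?_)
    rw [card_product, card_singleton, one_mul]
    refine (card_union_le _ _).trans ?_
    rw [card_product, card_product]
    have h1 := Nat.mul_le_mul (hborel (P x)) (hborel (P x))
    have h2 := Nat.mul_le_mul (hborel (P' x)) (hborel (P' x))
    linarith
  have htot : #S ^ 3 ≤ 2 * #(A ^ 2) ^ 2 + 3 * #S ^ 2 + #S * (8 * M ^ 2) := by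
    calc #S ^ 3 = #Z := by rw [card_product, card_product]; ring
      _ ≤ #(Z.filter (fun z => ¬Deg z ∧ ¬Bad z) ∪ Z.filter Deg ∪ Z.filter Bad) :=
          card_le_card fun z hz => by simp only [mem_union, mem_filter]; tauto
      _ ≤ _ := (card_union_le _ _).trans (Nat.add_le_add_right (card_union_le _ _) _)
      _ ≤ _ := by omega
  generalize #S = n at htot
  generalize #(A ^ 8) = B at hM hB1 h28
  have h2B : #(A ^ 2) ^ 2 ≤ B ^ 2 := Nat.pow_le_pow_left h28 2
  generalize #(A ^ 2) ^ 2 = C at htot h2B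
  have hB2 : 1 ≤ B ^ 2 := Nat.one_le_pow _ _ hB1
  by_cases c1 : n ^ 3 ≤ 6 * C
  · omega
  by_cases c2 : n ^ 3 ≤ 9 * n ^ 2
  · have : n ≤ 9 := by
      by_contra! h
      nlinarith [show 10 * n ^ 2 ≤ n * n ^ 2 from Nat.mul_le_mul_right _ h]
    calc n ^ 3 ≤ 9 ^ 3 := Nat.pow_le_pow_left this 3
      _ ≤ 2 ^ 24 * B ^ 2 := by omega
  have c3 : n ^ 3 ≤ 24 * n * M ^ 2 := by linarith
  rcases Nat.eq_zero_or_pos n with rfl | hn
  · simp
  have c4 : n ^ 2 ≤ 24 * M ^ 2 := le_of_mul_le_mul_left (by linarith) hn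
  calc n ^ 3 ≤ n ^ 6 := Nat.pow_le_pow_right hn (by norm_num)
    _ = (n ^ 2) ^ 3 := by ring
    _ ≤ (24 * M ^ 2) ^ 3 := Nat.pow_le_pow_left c4 3
    _ = 24 ^ 3 * (M ^ 3) ^ 2 := by ring
    _ ≤ 24 ^ 3 * (8 * B) ^ 2 := by gcongr
    _ ≤ 2 ^ 24 * B ^ 2 := by
      rw [mul_pow, ← mul_assoc]
      exact Nat.mul_le_mul_right _ (by norm_num)

end FA.Helfgott

end
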