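import Fermat.Agent.Helfgott.LarsenPink
import Mathlib.Algebra.Field.ZMod
import Mathlib.Combinatorics.Enumerative.DoubleCounting

/-!
# The tori involved in a set

If `A` grows little then every conjugate of a torus meeting `A ^ 6` meets `A ^ 2` in many regular
elements, and there are about `p ^ 2` tori, so `A` is large.
-/

set_option autoImplicit false

noncomputable section

namespace FA.Helfgott

open Matrix FA.StrongApprox Finset
open scoped Pointwise Classical

variable {F : Type*} [Field F]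

/-- `-1`. -/
def negOne : SL2 F := ⟨!![-1, 0; 0, -1], by simp [det_fin_two]⟩

theorem mul_self_eq_negOne {x : SL2 F} (h : tr x = 0) : x * x = negOne := by
  have hd := det_eq x
  simp only [tr] at h
  ext i j
  fin_cases i <;> fin_cases j <;> simp [negOne, Matrix.mul_apply, Fin.sum_univ_two]
  · linear_combination x.1 0 0 * h - hd
  · linear_combination x.1 0 1 * h
  · linear_combination x.1 1 0 * h
  · linear_combination x.1 1 1 * h - hd

variable [DecidableEq F]

/-- Five traces along a unipotent direction are distinct. -/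
theorem exists_good_of_parabolic {A : Finset (SL2 F)} (h2 : (2 : F) ≠ 0) (h3 : (3 : F) ≠ 0)
    (hA : A⁻¹ = A) (h1 : 1 ∈ A) (hgen : Subgroup.closure (A : Set (SL2 F)) = ⊤) {a : SL2 F}
    (ha : a ∈ A ^ 2) {e : F} (he : e = 1 ∨ e = -1) (htr : tr a = 2 * e)
    (hne : a.1 ≠ e • 1) : ∃ x ∈ A ^ 6, Good x := by
  set N := e • a.1 - 1 with hN
  have hee : e * e = 1 := by rcases he with rfl | rfl <;> ring
  have hN0 : N ≠ 0 := fun h => hne (by
    rw [hN, sub_eq_zero] at h
    rw [← h, smul_smul, hee, one_smul])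
  have hd := det_eq a
  simp only [tr] at htr
  have hN00 : N 0 0 + N 1 1 = 0 := by
    simp [hN]
    linear_combination e * htr + 2 * hee
  have hNdet : N 0 0 * N 1 1 - N 0 1 * N 1 0 = 0 := by
    simp [hN]
    linear_combination e * e * hd - e * htr - hee
  obtain ⟨P, hP⟩ := exists_borel hN0 hN00 hNdet
  obtain ⟨b, hb, hu⟩ : ∃ b ∈ A, (N * b.1).trace ≠ 0 := by
    by_contra! h
    exact borel_ne_top P (top_le_iff.1 (hgen ▸ (Subgroup.closure_le _).2 fun x hx => hP x (h x hx)))
  have t1 : tr (a * b) = e * (tr b + (N * b.1).trace) := by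
    simp [tr, hN, trace_fin_two, Matrix.mul_apply, Fin.sum_univ_two]
    linear_combination -(a.1 0 0 * b.1 0 0 + a.1 0 1 * b.1 1 0 + a.1 1 0 * b.1 0 1 +
      a.1 1 1 * b.1 1 1) * hee
  have t2 : tr (a⁻¹ * b) = e * (tr b - (N * b.1).trace) := by
    simp [tr, hN, trace_fin_two, Matrix.mul_apply, Fin.sum_univ_two,
      SpecialLinearGroup.coe_inv, adjugate_fin_two]
    linear_combination (b.1 0 0 + b.1 1 1) * htr + (a.1 0 0 * b.1 0 0 + a.1 0 1 * b.1 1 0 +
      a.1 1 0 * b.1 0 1 + a.1 1 1 * b.1 1 1) * hee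
  have t3 : tr (a * a * b) = tr b + 2 * (N * b.1).trace := by
    simp [tr, hN, trace_fin_two, Matrix.mul_apply, Fin.sum_univ_two]
    linear_combination (a.1 0 0 * b.1 0 0 + a.1 0 1 * b.1 1 0 + a.1 1 0 * b.1 0 1 +
      a.1 1 1 * b.1 1 1) * htr - (b.1 0 0 + b.1 1 1) * hd
  have t4 : tr (a⁻¹ * a⁻¹ * b) = tr b - 2 * (N * b.1).trace := by
    simp [tr, hN, trace_fin_two, Matrix.mul_apply, Fin.sum_univ_two,
      SpecialLinearGroup.coe_inv, adjugate_fin_two]
    linear_combination ((b.1 0 0 + b.1 1 1) * (a.1 0 0 + a.1 1 1) - a.1 0 0 * b.1 0 0 -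
      a.1 0 1 * b.1 1 0 - a.1 1 0 * b.1 0 1 - a.1 1 1 * b.1 1 1 + 2 * e * (b.1 0 0 + b.1 1 1)) *
        htr - (b.1 0 0 + b.1 1 1) * hd + 4 * (b.1 0 0 + b.1 1 1) * hee
  generalize (N * b.1).trace = u at hu t1 t2 t3 t4
  have ha' : a⁻¹ ∈ A ^ 2 := by
    have := Finset.inv_mem_inv ha
    rwa [← inv_pow, hA] at this
  have mem : ∀ x ∈ A ^ 2, ∀ y ∈ A ^ 2, x * y * b ∈ A ^ 6 := fun x hx y hy =>
    Finset.pow_subset_pow_right h1 (by norm_num : 2 + 2 + 1 ≤ 6) (by
      rw [pow_add, pow_add, pow_one]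
      exact mul_mem_mul (mul_mem_mul hx hy) hb)
  have h12 : (1 : SL2 F) ∈ A ^ 2 := Finset.pow_subset_pow_right h1 (Nat.zero_le _) (by simp)
  by_contra! hbad
  have hval : ∀ x ∈ A ^ 6, tr x ∈ ({0, 2, -2} : Finset F) := fun x hx => by
    have := hbad x hx
    simp only [Good, not_and, not_not] at this
    by_cases h0 : tr x = 0
    · simp [h0]
    rcases sq_eq_sq_iff_eq_or_eq_neg.1 (show tr x ^ 2 = 2 ^ 2 by rw [this h0]; ring) with h | h <;>
      simp [h]
  have key : ∀ k ∈ ({0, 1, -1, 2, -2} : Finset F), tr b + k * u ∈ ({0, 2, -2} : Finset F) := by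
    intro k hk
    have hsymm : ∀ r, e * r ∈ ({0, 2, -2} : Finset F) → r ∈ ({0, 2, -2} : Finset F) :=
        fun r hr => by
      rcases he with rfl | rfl
      · simpa using hr
      · simp only [Finset.mem_insert, Finset.mem_singleton, neg_one_mul, neg_eq_zero, neg_inj]
          at hr ⊢
        rcases hr with h | h | h
        · exact .inl h
        · exact .inr (.inr (by rw [← h, neg_neg]))
        · exact .inr (.inl h)
    simp only [Finset.mem_insert, Finset.mem_singleton] at hk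
    rcases hk with rfl | rfl | rfl | rfl | rfl
    · simpa using hval _ (by simpa using mem 1 h12 1 h12)
    · refine hsymm _ ?_
      rw [one_mul, ← t1]
      exact hval _ (by simpa using mem a ha 1 h12)
    · refine hsymm _ ?_
      rw [neg_one_mul, ← sub_eq_add_neg, ← t2]
      exact hval _ (by simpa using mem a⁻¹ ha' 1 h12)
    · rw [← t3]
      exact hval _ (mem a ha a ha)
    · rw [neg_mul, ← sub_eq_add_neg, ← t4]
      exact hval _ (mem _ ha' _ ha')
  have h4 : (4 : F) ≠ 0 := by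
    rw [show (4 : F) = 2 * 2 by norm_num]
    exact mul_ne_zero h2 h2
  have hcard : #({0, 1, -1, 2, -2} : Finset F) ≤ #({0, 2, -2} : Finset F) :=
    card_le_card_of_injOn (fun k => tr b + k * u) key
      fun k _ k' _ h => mul_right_cancel₀ hu (add_left_cancel h)
  have h5 : #({0, 1, -1, 2, -2} : Finset F) = 5 := by
    have d1 : (1 : F) ≠ -1 := fun h => h2 (by linear_combination h)
    have d2 : (2 : F) ≠ -2 := fun h => h4 (by linear_combination h)
    have d3 : (1 : F) ≠ -2 := fun h => h3 (by linear_combination h)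
    have d4 : (-1 : F) ≠ 2 := fun h => h3 (by linear_combination -h)
    have d5 : (1 : F) ≠ 2 := fun h => one_ne_zero (by linear_combination -h)
    have d6 : (-1 : F) ≠ -2 := fun h => one_ne_zero (by linear_combination h)
    repeat rw [card_insert_of_notMem (by simp [h2, h2.symm, d1, d2, d3, d4, d5, d6])]
    rw [card_singleton]
  have h6 : #({0, 2, -2} : Finset F) ≤ 3 := card_le_three
  omega

/-- **A set of more than eight elements gives a regular element.** -/
theorem exists_good {A : Finset (SL2 F)} (h2 : (2 : F) ≠ 0) (h3 : (3 : F) ≠ 0) (hA : A⁻¹ = A)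
    (h1 : 1 ∈ A) (hgen : Subgroup.closure (A : Set (SL2 F)) = ⊤) (h8 : 8 < #A) :
    ∃ x ∈ A ^ 6, Good x := by
  by_contra hno
  have hcase : ∀ x ∈ A ^ 2, x = 1 ∨ x = negOne ∨ tr x = 0 := by
    intro x hx
    by_cases h0 : tr x = 0
    · exact .inr (.inr h0)
    have hg := fun h => hno ⟨x, Finset.pow_subset_pow_right h1 (by norm_num) hx, h⟩
    have hsq : tr x ^ 2 = 4 := not_not.1 fun h => hg ⟨h0, h⟩
    rcases sq_eq_sq_iff_eq_or_eq_neg.1 (show tr x ^ 2 = 2 ^ 2 by rw [hsq]; ring) with h | h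
    · refine .inl (not_not.1 fun hne => hno (exists_good_of_parabolic h2 h3 hA h1 hgen hx
        (e := 1) (.inl rfl) (by rw [h, mul_one]) fun e => hne (Subtype.ext (by simpa using e))))
    · refine .inr (.inl (not_not.1 fun hne => hno (exists_good_of_parabolic h2 h3 hA h1 hgen hx
        (e := -1) (.inr rfl) (by rw [h]; ring) fun e => hne (Subtype.ext ?_))))
      rw [e]
      ext i j
      fin_cases i <;> fin_cases j <;> simp [negOne]
  have hA2 : ∀ x ∈ A, x ∈ A ^ 2 := fun x hx =>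
    Finset.pow_subset_pow_right h1 one_le_two (by rwa [pow_one])
  have hmul : ∀ x ∈ A, ∀ y ∈ A, x * y ∈ A ^ 2 := fun x hx y hy => by
    rw [pow_two]; exact mul_mem_mul hx hy
  have hnot : ∀ S : Finset (SL2 F), #S ≤ 8 → ∃ c ∈ A, c ∉ S := fun S hS => by
    by_contra! h
    exact absurd (card_le_card h) (by omega)
  have hz : ∀ x : SL2 F, tr x = 0 → x⁻¹ * negOne = x := fun x h => by
    rw [← mul_self_eq_negOne h, inv_mul_cancel_left]
  obtain ⟨a, haA, ha⟩ := hnot {1, negOne} (card_le_two.trans (by norm_num))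
  simp only [Finset.mem_insert, Finset.mem_singleton, not_or] at ha
  have hta : tr a = 0 := ((hcase a (hA2 a haA)).resolve_left ha.1).resolve_left ha.2
  have hsmall : ∀ {x y : SL2 F}, x ∈ A → y ∈ A → tr x = 0 → y ≠ x → y ≠ x⁻¹ → tr (x * y) = 0 := by
    intro x y hx hy htx hne hne'
    rcases hcase _ (hmul x hx y hy) with h | h | h
    · exact absurd (eq_inv_of_mul_eq_one_right h) hne'
    · refine absurd ?_ hne
      rw [← hz x htx, ← h, inv_mul_cancel_left]
    · exact h
  obtain ⟨b, hbA, hb⟩ := hnot {1, negOne, a, a⁻¹} (card_le_four.trans (by norm_num))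
  simp only [Finset.mem_insert, Finset.mem_singleton, not_or] at hb
  have htb : tr b = 0 := ((hcase b (hA2 b hbA)).resolve_left hb.1).resolve_left hb.2.1
  have htab := hsmall haA hbA hta hb.2.2.1 hb.2.2.2
  obtain ⟨c, hcA, hc⟩ := hnot ({1, negOne, a, a⁻¹} ∪ {b, b⁻¹, a * b, (a * b)⁻¹})
    ((card_union_le _ _).trans (Nat.add_le_add card_le_four card_le_four))
  simp only [Finset.mem_union, Finset.mem_insert, Finset.mem_singleton, not_or] at hc
  obtain ⟨⟨hc1, hc2, hca, hca'⟩, hcb, hcb', hcab, hcab'⟩ := hc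
  have htc : tr c = 0 := ((hcase c (hA2 c hcA)).resolve_left hc1).resolve_left hc2
  have anti : ∀ x, tr x = 0 → tr (x * c) = 0 → c * x * c = x := fun x hx hxc => by
    rw [← mul_left_cancel_iff (a := x), ← mul_assoc, ← mul_assoc, mul_self_eq_negOne hx,
      show x * c * x * c = x * c * (x * c) by group, mul_self_eq_negOne hxc]
  have e1 : c * a = a * c⁻¹ := eq_mul_inv_iff_mul_eq.2 (anti a hta (hsmall haA hcA hta hca hca'))
  have e2 : c⁻¹ * b = b * c := by
    rw [inv_mul_eq_iff_eq_mul, ← mul_assoc]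
    exact (anti b htb (hsmall hbA hcA htb hcb hcb')).symm
  have hcomm : Commute (a * b) c := by
    show a * b * c = c * (a * b)
    rw [← mul_assoc c, e1, mul_assoc a c⁻¹, e2, mul_assoc]
  have h40 : tr (a * b) ^ 2 ≠ 4 := by
    rw [htab, zero_pow two_ne_zero, show (4 : F) = 2 * 2 by norm_num]
    exact (mul_ne_zero h2 h2).symm
  rcases eq_or_eq_inv h2 h40 (Commute.refl (a * b)) hcomm (htab.trans htc.symm) with h | h
  · exact hcab h
  · exact hcab' h

variable {p : ℕ} [hp : Fact p.Prime]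

/-- `|SL₂ (𝔽_p)| ≤ p ^ 3`. -/
theorem card_SL2_le : Fintype.card (SL2 (ZMod p)) ≤ p ^ 3 := by
  refine (Fintype.card_le_of_injective (fun g : SL2 (ZMod p) =>
    (g.1 0 0, g.1 1 0, if g.1 1 0 = 0 then g.1 0 1 else g.1 1 1)) fun g g' h => ?_).trans
    (le_of_eq (by simp [Fintype.card_prod]; ring))
  simp only [Prod.mk.injEq] at h
  obtain ⟨ha, hc, hx⟩ := h
  have d := det_eq g
  have d' := det_eq g'
  rw [← hc] at hx
  by_cases h0 : g.1 1 0 = 0
  · rw [if_pos h0, if_pos h0] at hx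
    rw [h0, mul_zero, sub_zero] at d
    rw [← ha, ← hc, h0, mul_zero, sub_zero] at d'
    have hne : g.1 0 0 ≠ 0 := fun e => by simp [e] at d
    refine Subtype.ext (Matrix.ext fun i j => ?_)
    fin_cases i <;> fin_cases j
    · exact ha
    · exact hx
    · exact hc
    · exact mul_left_cancel₀ hne (d.trans d'.symm)
  · rw [if_neg h0, if_neg h0] at hx
    rw [← ha, ← hc, ← hx] at d'
    refine Subtype.ext (Matrix.ext fun i j => ?_)
    fin_cases i <;> fin_cases j
    · exact ha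
    · refine mul_right_cancel₀ h0 ?_
      show g.1 0 1 * g.1 1 0 = g'.1 0 1 * g.1 1 0
      linear_combination d' - d
    · exact hc
    · exact hx

/-- `p ^ 2 (p - 1) ≤ |SL₂ (𝔽_p)|`. -/
theorem le_card_SL2 : p * p * (p - 1) ≤ Fintype.card (SL2 (ZMod p)) := by
  have h : Fintype.card (ZMod p × ZMod p × (ZMod p)ˣ) = p * p * (p - 1) := by
    simp [Fintype.card_prod, ZMod.card_units_eq_totient, Nat.totient_prime hp.out]
    ring
  rw [← h]
  refine Fintype.card_le_of_injective (fun z => (⟨!![z.1, (z.1 * z.2.1 - 1) * (z.2.2 : ZMod p)⁻¹;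
    z.2.2, z.2.1], by rw [det_fin_two_of, inv_mul_cancel_right₀ z.2.2.ne_zero]; ring⟩ :
      SL2 (ZMod p))) fun z z' h => ?_
  have e := congrArg Subtype.val h
  refine Prod.ext (congrFun (congrFun e 0) 0) (Prod.ext (congrFun (congrFun e 1) 1) (Units.ext ?_))
  exact congrFun (congrFun e 1) 0

/-- Trace classes in a torus have at most two points. -/
theorem card_commute_tr_le {x : SL2 F} (h2 : (2 : F) ≠ 0)
    (hx : tr x ^ 2 ≠ 4) (S : Finset (SL2 F)) (r : F) :
    #(S.filter fun y => Commute x y ∧ tr y = r) ≤ 2 := by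
  rcases (S.filter fun y => Commute x y ∧ tr y = r).eq_empty_or_nonempty with h | ⟨y, hy⟩
  · simp [h]
  refine (card_le_card (t := {y, y⁻¹}) fun z hz => ?_).trans card_le_two
  obtain ⟨hy1, hy2⟩ := (mem_filter.1 hy).2
  obtain ⟨hz1, hz2⟩ := (mem_filter.1 hz).2
  simpa using eq_or_eq_inv h2 hx hy1 hz1 (hy2.trans hz2.symm)

theorem card_commute_le {x : SL2 (ZMod p)} (h2 : (2 : ZMod p) ≠ 0) (hx : tr x ^ 2 ≠ 4) :
    #((univ : Finset (SL2 (ZMod p))).filter fun y => Commute x y) ≤ 2 * p := by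
  refine (card_le_mul_card_image (f := tr) _ 2 fun r _ => ?_).trans
    (Nat.mul_le_mul_left 2 ((card_le_univ _).trans (ZMod.card p).le))
  rw [filter_filter]
  exact card_commute_tr_le h2 hx _ r

/-- **The dichotomy.** -/
theorem tori_dichotomy (hp5 : 5 ≤ p) {A : Finset (SL2 (ZMod p))} (hA : A⁻¹ = A) (h1 : 1 ∈ A)
    (hgen : Subgroup.closure (A : Set (SL2 (ZMod p))) = ⊤) (h8 : 8 < #A) :
    #A ^ 3 ≤ 2 ^ 35 * #(A ^ 80) ^ 2 ∨
      p ^ 6 * #A ^ 3 ≤ 2 ^ 36 * #(A ^ 2) ^ 3 * #(A ^ 80) ^ 2 := by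
  refine or_iff_not_imp_left.2 fun hbig => ?_
  have hne : ∀ n : ℕ, 0 < n → n < p → (n : ZMod p) ≠ 0 := fun n h0 hn e =>
    absurd (Nat.le_of_dvd h0 ((ZMod.natCast_eq_zero_iff _ _).1 e)) (by omega)
  have h2 : (2 : ZMod p) ≠ 0 := by exact_mod_cast hne 2 (by omega) (by omega)
  have h3 : (3 : ZMod p) ≠ 0 := by exact_mod_cast hne 3 (by omega) (by omega)
  obtain ⟨x, hx6, hxg⟩ := exists_good h2 h3 hA h1 hgen h8
  set T : SL2 (ZMod p) → Finset (SL2 (ZMod p)) := fun y => (A ^ 2).filter fun z => Commute y z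
  set G : SL2 (ZMod p) → Finset (SL2 (ZMod p)) := fun y => (T y).filter Good
  -- orbit and stabiliser
  have horb : ∀ y ∈ A ^ 8, Good y → #A ^ 3 ≤ 2 ^ 24 * #(A ^ 80) ^ 2 * #(T y) ^ 3 := by
    intro y hy hyg
    set C := (A ^ 10).filter fun z => tr z = tr y
    have hC : #C ^ 3 ≤ 2 ^ 24 * #(A ^ 80) ^ 2 := by
      have := larsen_pink (A := A ^ 10) (by rw [← inv_pow, hA])
        (Finset.pow_subset_pow_right h1 (Nat.zero_le _) (by simp))
        (top_le_iff.1 (hgen ▸ Subgroup.closure_mono fun z hz =>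
          Finset.pow_subset_pow_right h1 (show 1 ≤ 10 by norm_num) (by simpa using hz)))
        hyg.1 hyg.2
      rwa [← pow_mul] at this
    have hN : #A ≤ #(T y) * #C := by
      refine card_le_mul_card_image_of_maps_to (f := fun a => a * y * a⁻¹) (fun a ha => ?_) _
        fun z _ => ?_
      · refine mem_filter.2 ⟨?_, tr_conj a y⟩
        rw [show (10 : ℕ) = 1 + 8 + 1 from rfl, pow_add, pow_add, pow_one]
        exact mul_mem_mul (mul_mem_mul ha hy) (hA ▸ Finset.inv_mem_inv ha)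
      · rcases (A.filter fun a => a * y * a⁻¹ = z).eq_empty_or_nonempty with h | ⟨a, ha⟩
        · simp [h]
        refine card_le_card_of_injOn (a⁻¹ * ·) (fun b hb => ?_) fun b _ b' _ h => mul_left_cancel h
        simp only [mem_coe, mem_filter, T] at ha hb ⊢
        refine ⟨?_, ?_⟩
        · rw [pow_two]
          exact mul_mem_mul (hA ▸ Finset.inv_mem_inv ha.1) hb.1
        · show y * (a⁻¹ * b) = a⁻¹ * b * y
          rw [← hb.2] at ha
          calc y * (a⁻¹ * b) = a⁻¹ * (a * y * a⁻¹) * b := by group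
            _ = a⁻¹ * (b * y * b⁻¹) * b := by rw [ha.2]
            _ = a⁻¹ * b * y := by group
    calc #A ^ 3 ≤ (#(T y) * #C) ^ 3 := Nat.pow_le_pow_left hN 3
      _ = #C ^ 3 * #(T y) ^ 3 := by ring
      _ ≤ _ := Nat.mul_le_mul_right _ hC
  have hhalf : ∀ y ∈ A ^ 8, Good y → #(T y) ≤ 2 * #(G y) ∧ (G y).Nonempty := by
    intro y hy hyg
    have hT : 12 < #(T y) := by
      by_contra! hle
      refine hbig ((horb y hy hyg).trans ?_)
      calc 2 ^ 24 * #(A ^ 80) ^ 2 * #(T y) ^ 3 ≤ 2 ^ 24 * #(A ^ 80) ^ 2 * 12 ^ 3 := by gcongr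
        _ ≤ _ := by
          generalize #(A ^ 80) ^ 2 = B
          omega
    have hbad : #((T y).filter fun z => ¬Good z) ≤ 2 * 3 := by
      refine (card_le_mul_card_image (f := tr) _ 2 fun r _ => ?_).trans
        (Nat.mul_le_mul_left 2
          ((card_le_card (t := {0, 2, -2}) fun r hr => ?_).trans card_le_three))
      · refine le_trans (card_le_card fun z hz => ?_) (card_commute_tr_le h2 hyg.2 (A ^ 2) r)
        simp only [mem_filter, T] at hz ⊢
        exact ⟨hz.1.1.1, hz.1.1.2, hz.2⟩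
      · obtain ⟨z, hz, rfl⟩ := mem_image.1 hr
        have hz' := (mem_filter.1 hz).2
        simp only [Good, not_and, not_not] at hz'
        by_cases h0 : tr z = 0
        · simp [h0]
        rcases sq_eq_sq_iff_eq_or_eq_neg.1 (show tr z ^ 2 = 2 ^ 2 by
          rw [hz' h0]; ring) with h | h <;>
          simp [h]
    have hsplit : #(T y) = #(G y) + #((T y).filter fun z => ¬Good z) :=
      (card_filter_add_card_filter_not _).symm
    exact ⟨by omega, card_pos.1 (by omega)⟩
  -- the conjugates of a torus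
  set y : SL2 (ZMod p) → SL2 (ZMod p) := fun g => g * x * g⁻¹ with hy
  have hyne : ∀ g, tr (y g) ^ 2 ≠ 4 := fun g => by rw [hy]; exact (hxg.conj g).2
  have hinv : ∀ g, (G (y g)).Nonempty := by
    have hstep : ∀ h ∈ Subgroup.closure (A : Set (SL2 (ZMod p))),
        ∀ g, (G (y g)).Nonempty → (G (y (h * g))).Nonempty := by
      intro h hh
      have one_step : ∀ a ∈ A, ∀ g, (G (y g)).Nonempty → (G (y (a * g))).Nonempty := by
        rintro a ha g ⟨z, hz⟩
        simp only [G, T, mem_filter] at hz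
        have hw : a * z * a⁻¹ ∈ A ^ 8 :=
          Finset.pow_subset_pow_right h1 (by norm_num : 1 + 2 + 1 ≤ 8) (by
            rw [pow_add, pow_add, pow_one]
            exact mul_mem_mul (mul_mem_mul ha hz.1.1) (hA ▸ Finset.inv_mem_inv ha))
        obtain ⟨w, hw'⟩ := (hhalf _ hw (hz.2.conj a)).2
        simp only [G, T, mem_filter] at hw' ⊢
        refine ⟨w, mem_filter.2 ⟨mem_filter.2 ⟨hw'.1.1, ?_⟩, hw'.2⟩⟩
        refine commute_of_commute (hz.2.conj a).2 ?_ hw'.1.2
        have := ((Commute.map hz.1.2 (MulAut.conj a).toMonoidHom)).symm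
        simpa [hy, MulAut.conj_apply, mul_assoc] using this
      induction hh using Subgroup.closure_induction'' with
      | mem a ha => exact one_step a ha
      | inv_mem a ha => exact one_step a⁻¹ (hA ▸ Finset.inv_mem_inv ha)
      | one => intro g hg; rwa [one_mul]
      | mul a b _ _ iha ihb => intro g hg; rw [mul_assoc]; exact iha _ (ihb g hg)
    intro g
    have hbase : (G (y 1)).Nonempty := by
      have := (hhalf x (Finset.pow_subset_pow_right h1 (by norm_num) hx6) hxg).2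
      simpa [hy] using this
    simpa using hstep g (hgen ▸ Subgroup.mem_top g) 1 hbase
  have hlarge : ∀ g, #A ^ 3 ≤ 2 ^ 27 * #(A ^ 80) ^ 2 * #(G (y g)) ^ 3 := by
    intro g
    obtain ⟨z, hz⟩ := hinv g
    simp only [G, T, mem_filter] at hz
    have hz8 : z ∈ A ^ 8 := Finset.pow_subset_pow_right h1 (by norm_num) hz.1.1
    have hGG : G z ⊆ G (y g) := fun w hw => by
      simp only [G, T, mem_filter] at hw ⊢
      exact ⟨⟨hw.1.1, commute_of_commute hz.2.2 hz.1.2.symm hw.1.2⟩, hw.2⟩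
    refine (horb z hz8 hz.2).trans ?_
    have h : #(T z) ≤ 2 * #(G (y g)) :=
      (hhalf z hz8 hz.2).1.trans (Nat.mul_le_mul_left 2 (card_le_card hGG))
    calc 2 ^ 24 * #(A ^ 80) ^ 2 * #(T z) ^ 3
        ≤ 2 ^ 24 * #(A ^ 80) ^ 2 * (2 * #(G (y g))) ^ 3 := by gcongr
      _ = _ := by ring
  obtain ⟨g₀, -, hmin⟩ := exists_min_image univ (fun g => #(G (y g))) univ_nonempty
  have hcount : #(univ : Finset (SL2 (ZMod p))) * #(G (y g₀)) ≤ #(A ^ 2) * (4 * p) := by
    refine card_mul_le_card_mul (fun g w => w ∈ G (y g)) (fun g _ => ?_) fun w hw => ?_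
    · refine (hmin g (mem_univ g)).trans (card_le_card fun w hw => ?_)
      exact (mem_bipartiteAbove _).2 ⟨(mem_filter.1 (mem_filter.1 hw).1).1, hw⟩
    rcases (univ.bipartiteBelow (fun g w => w ∈ G (y g)) w).eq_empty_or_nonempty with h | ⟨g, hg⟩
    · simp [h]
    rw [mem_bipartiteBelow] at hg
    obtain ⟨⟨-, hgw⟩, hwg⟩ : (w ∈ A ^ 2 ∧ Commute (y g) w) ∧ Good w := by
      simpa [G, T] using hg.2
    refine (card_le_mul_card_image_of_maps_to (f := y) (t := {y g, (y g)⁻¹})
      (fun k hk => ?_) (2 * p)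
      fun z _ => ?_).trans ((Nat.mul_le_mul_left _ card_le_two).trans (le_of_eq (by ring)))
    · rw [mem_bipartiteBelow] at hk
      have hkw : Commute (y k) w := by
        have := hk.2
        simp only [G, T, mem_filter] at this
        exact this.1.2
      have hc : Commute (y g) (y k) := commute_of_commute hwg.2 hgw.symm hkw.symm
      simpa using eq_or_eq_inv h2 (hyne g) (Commute.refl _) hc (by simp [hy, tr_conj])
    · rcases ((univ.bipartiteBelow (fun g w => w ∈ G (y g)) w).filter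
        fun k => y k = z).eq_empty_or_nonempty
        with h | ⟨k, hk⟩
      · simp [h]
      refine le_trans ?_ (card_commute_le h2 hxg.2)
      refine card_le_card_of_injOn (k⁻¹ * ·) (fun l hl => ?_) fun l _ l' _ h => mul_left_cancel h
      simp only [mem_coe, mem_filter, mem_univ, true_and] at hl hk ⊢
      have hkl : k * x * k⁻¹ = l * x * l⁻¹ := hk.2.trans hl.2.symm
      show x * (k⁻¹ * l) = k⁻¹ * l * x
      calc x * (k⁻¹ * l) = k⁻¹ * (k * x * k⁻¹) * l := by group
        _ = k⁻¹ * (l * x * l⁻¹) * l := by rw [hkl]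
        _ = k⁻¹ * l * x := by group
  have hG2 : p ^ 3 ≤ 2 * #(univ : Finset (SL2 (ZMod p))) := by
    rw [card_univ]
    refine le_trans ?_ (Nat.mul_le_mul_left 2 le_card_SL2)
    calc p ^ 3 = p * p * p := by ring
      _ ≤ p * p * (2 * (p - 1)) := Nat.mul_le_mul_left _ (by omega)
      _ = _ := by ring
  have hτ := hlarge g₀
  generalize #(G (y g₀)) = τ at hcount hτ
  generalize #(univ : Finset (SL2 (ZMod p))) = g at hcount hG2
  generalize #(A ^ 80) ^ 2 = B at hτ ⊢
  generalize #(A ^ 2) = D at hcount ⊢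
  have h' : p ^ 3 * τ ≤ p * (8 * D) := by
    calc p ^ 3 * τ ≤ 2 * g * τ := Nat.mul_le_mul_right _ hG2
      _ = 2 * (g * τ) := by ring
      _ ≤ 2 * (D * (4 * p)) := Nat.mul_le_mul_left _ hcount
      _ = _ := by ring
  have h'' : p ^ 2 * τ ≤ 8 * D :=
    Nat.le_of_mul_le_mul_left (a := p ^ 2 * τ) (b := 8 * D) (c := p) (by
      rw [← mul_assoc, ← pow_succ']; exact h') (by omega)
  calc p ^ 6 * #A ^ 3 ≤ p ^ 6 * (2 ^ 27 * B * τ ^ 3) := Nat.mul_le_mul_left _ hτ
    _ = 2 ^ 27 * B * (p ^ 2 * τ) ^ 3 := by ring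
    _ ≤ 2 ^ 27 * B * (8 * D) ^ 3 := by gcongr
    _ = _ := by ring

end FA.Helfgott

end
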